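import Fermat.Agent.GenusX0.Ram

/-!
# Ramification over `0`, `1728`, `∞` and the order of `dj`
-/

set_option autoImplicit false

noncomputable section

open HahnSeries ModularCurve UpperHalfPlane IntermediateField AlgebraicCurve
open scoped MatrixGroups

namespace Fermat.Agent.GenusX0

open Fermat.Agent.ModFun Fermat.Agent.DimS2 Fermat.Agent.Curves

variable {k : Type*} [Field k] [IsAlgClosed k] [CharZero k] (ι : k →+* ℂ) {N : ℕ} [NeZero N]

omit [IsAlgClosed k] [CharZero k] [NeZero N] in
theorem transcendental_je : Transcendental k (je k N) := by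
  intro h
  exact transcendental_jqModC k (h.algHom (modularFunctionFieldFullC k N).val)

omit [IsAlgClosed k] [CharZero k] [NeZero N] in
theorem transcendental_je_sub (c : k) :
    Transcendental k (je k N - algebraMap k (modularFunctionFieldFullC k N) c) := by
  intro h
  apply transcendental_je (k := k) (N := N)
  have := h.add (isAlgebraic_algebraMap (R := k) (A := modularFunctionFieldFullC k N) c)
  rwa [sub_add_cancel] at this

omit [IsAlgClosed k] [CharZero k] [NeZero N] in
theorem transcendental_je_inv : Transcendental k (je k N)⁻¹ := by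
  intro h
  apply transcendental_je (k := k) (N := N)
  have := h.inv
  rwa [inv_inv] at this

theorem finrank_je : Module.finrank k⟮je k N⟯ (modularFunctionFieldFullC k N) = dedekindPsi N :=
  finrank_fullC k N (by exact_mod_cast NeZero.ne N)

omit [IsAlgClosed k] [CharZero k] [NeZero N] in
theorem adjoin_sub_eq {F : Type*} [Field F] [Algebra k F] (x : F) (c : k) :
    k⟮x - algebraMap k F c⟯ = k⟮x⟯ := by
  apply le_antisymm
  · rw [IntermediateField.adjoin_simple_le_iff]
    exact sub_mem (IntermediateField.mem_adjoin_simple_self k x) (IntermediateField.algebraMap_mem _ c)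
  · rw [IntermediateField.adjoin_simple_le_iff]
    have := add_mem (IntermediateField.mem_adjoin_simple_self k (x - algebraMap k F c))
      (IntermediateField.algebraMap_mem k⟮x - algebraMap k F c⟯ c)
    rwa [sub_add_cancel] at this

theorem finrank_je_sub (c : k) :
    Module.finrank k⟮je k N - algebraMap k (modularFunctionFieldFullC k N) c⟯
      (modularFunctionFieldFullC k N) = dedekindPsi N := by
  rw [adjoin_sub_eq, finrank_je]

theorem finrank_je_inv :
    Module.finrank k⟮(je k N)⁻¹⟯ (modularFunctionFieldFullC k N) = dedekindPsi N := by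
  rw [finrank_adjoin_inv, finrank_je]

/-- local parameter at a point of the upper half plane -/
theorem isLoc_pt (P : PtData) (c : k) (hc : jfun P.pt = ι c) (he : P.e = jram (jfun P.pt)) :
    IsLoc ι (P.toUDN N) (je k N - algebraMap k (modularFunctionFieldFullC k N) c) where
  tr := transcendental_je_sub c
  deg := finrank_je_sub c
  fib := by
    refine ⟨sig ι (P.toUDN N) ((1 : SL(2, ℤ)) : Cos N) (je k N) - HahnSeries.C (ι c), ?_, ?_⟩
    · intro x
      have h := (sig_je ι (P.toUDN N) x).unique (sig_je ι (P.toUDN N) ((1 : SL(2, ℤ)) : Cos N))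
      rw [map_sub, sig_const, h]
    · rw [← hc]
      have h := order_jfun_sub P (sig_je ι (P.toUDN N) ((1 : SL(2, ℤ)) : Cos N))
      rw [h, ← he]
      rfl

/-- local parameter at infinity -/
theorem isLoc_cusp : IsLoc ι (cuspUDN N) (je k N)⁻¹ where
  tr := transcendental_je_inv
  deg := finrank_je_inv
  fib := by
    have hJ : HasExp (cuspUD N) jfun (qExpand ℂ N (jqModC ℂ)) := by
      refine ⟨qExpand_mem_convLaurent N jqModC_mem_convLaurent, fun τ _ => ?_⟩
      rw [evf_qExpand]
      have h1 : (cuspUD N).u τ ^ N = Function.Periodic.qParam 1 (τ : ℂ) := by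
        change Function.Periodic.qParam N (τ : ℂ) ^ N = _
        rw [Function.Periodic.qParam, Function.Periodic.qParam, ← Complex.exp_nat_mul]
        congr 1
        have : (N : ℂ) ≠ 0 := by exact_mod_cast NeZero.ne N
        push_cast
        field_simp
      rw [h1, evf_jqModC]
    have h2 : ∀ x, sig ι (cuspUDN N) x (je k N) = qExpand ℂ N (jqModC ℂ) := by
      intro x
      exact (sig_je ι (cuspUDN N) x).unique hJ
    have h3 : (qExpand ℂ N (jqModC ℂ)).order = -N := by
      have := order_qExpand' (m := N) 1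
      rwa [twist_one] at this
    have h0 : qExpand ℂ N (jqModC ℂ) ≠ 0 := by
      intro h0
      rw [h0, HahnSeries.order_zero] at h3
      have := NeZero.ne N
      omega
    refine ⟨(qExpand ℂ N (jqModC ℂ))⁻¹, fun x => by rw [map_inv₀, h2], ?_⟩
    have h4 := HahnSeries.order_mul h0 (inv_ne_zero h0)
    rw [mul_inv_cancel₀ h0, HahnSeries.order_one, h3] at h4
    change (qExpand ℂ N (jqModC ℂ))⁻¹.order = (N : ℤ)
    omega

theorem jram_zero : jram 0 = 3 := by simp [jram]

theorem jram_1728 : jram 1728 = 2 := by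
  rw [jram, if_neg (by norm_num), if_pos rfl]

theorem isLoc_rho : IsLoc ι (ptRho.toUDN N) (je k N) := by
  have h := isLoc_pt (N := N) ι ptRho 0 (by rw [map_zero]; exact jfun_rho)
    (by
      have : jfun ptRho.pt = 0 := jfun_rho
      rw [this, jram_zero]
      rfl)
  rwa [map_zero, sub_zero] at h

theorem isLoc_I :
    IsLoc ι (ptI.toUDN N) (je k N - algebraMap k (modularFunctionFieldFullC k N) 1728) :=
  isLoc_pt ι ptI 1728 (by
      have : jfun ptI.pt = 1728 := jfun_I
      rw [this, map_ofNat]) (by
      have : jfun ptI.pt = 1728 := jfun_I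
      rw [this, jram_1728]
      rfl)

theorem isLoc_gen {c : k} (h0 : c ≠ 0) (h1 : c ≠ 1728) :
    ∃ τ : ℍ, jfun τ = ι c ∧ IsLoc ι ((ptGen τ).toUDN N)
      (je k N - algebraMap k (modularFunctionFieldFullC k N) c) := by
  obtain ⟨τ, hτ⟩ := exists_jfun_eq (ι c)
  refine ⟨τ, hτ, isLoc_pt ι (ptGen τ) c hτ ?_⟩
  change 1 = jram (jfun τ)
  rw [hτ, jram, if_neg, if_neg]
  · intro h
    apply h1
    apply ι.injective
    rw [h, map_ofNat]
  · intro h
    apply h0
    apply ι.injective
    rw [h, map_zero]

/-- A uniform version: every finite `c` has a datum. -/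
theorem exists_isLoc (c : k) : ∃ P : PtData, jfun P.pt = ι c ∧ P.e = jram (ι c) ∧
    IsLoc ι (P.toUDN N) (je k N - algebraMap k (modularFunctionFieldFullC k N) c) := by
  by_cases h0 : c = 0
  · subst h0
    refine ⟨ptRho, by rw [map_zero]; exact jfun_rho, by rw [map_zero, jram_zero]; rfl, ?_⟩
    have := isLoc_rho (k := k) (N := N) ι
    rwa [map_zero, sub_zero]
  by_cases h1 : c = 1728
  · subst h1
    exact ⟨ptI, by rw [map_ofNat]; exact jfun_I, by rw [map_ofNat, jram_1728]; rfl, isLoc_I ι⟩
  · obtain ⟨τ, hτ, h⟩ := isLoc_gen (N := N) ι h0 h1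
    refine ⟨ptGen τ, hτ, ?_, h⟩
    change 1 = jram (ι c)
    rw [jram, if_neg, if_neg]
    · intro h
      apply h1
      apply ι.injective
      rw [h, map_ofNat]
    · intro h
      apply h0
      apply ι.injective
      rw [h, map_zero]

variable (v : Place k (modularFunctionFieldFullC k N))

/-- every place is over a finite point or infinity -/
theorem place_cases : (v.ord (je k N) < 0) ∨
    ∃ c : k, 0 < v.ord (je k N - algebraMap k (modularFunctionFieldFullC k N) c) := by
  have hj0 : je k N ≠ 0 := fun h => transcendental_je (k := k) (N := N) (h ▸ isAlgebraic_zero)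
  rcases lt_or_ge (v.ord (je k N)) 0 with h | h
  · exact Or.inl h
  · right
    have h1 := (mem_iff_val v).mp ((mem_iff_ord v hj0).mpr h)
    obtain ⟨c, hc⟩ := exists_residue v h1
    refine ⟨c, ?_⟩
    rw [val_lt_one_iff] at hc
    rcases hc with hc | hc
    · exfalso
      exact transcendental_je_sub (N := N) c (hc ▸ isAlgebraic_zero)
    · exact hc

/-- **Ramification**: the order of `j - c` divides `1`, `2` (`c = 1728`) or `3` (`c = 0`). -/
theorem ord_je_sub_dvd {c : k}
    (hv : 0 < v.ord (je k N - algebraMap k (modularFunctionFieldFullC k N) c)) (ι : k →+* ℂ) :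
    v.ord (je k N - algebraMap k (modularFunctionFieldFullC k N) c) ∣ jram (ι c) := by
  obtain ⟨P, _, h2, h3⟩ := exists_isLoc (N := N) ι c
  have := ord_dvd h3 hv
  rw [← h2]
  exact this

theorem ord_je_sub_le_one {c : k} (ι : k →+* ℂ) (h0 : c ≠ 0) (h1 : c ≠ 1728) :
    v.ord (je k N - algebraMap k (modularFunctionFieldFullC k N) c) ≤ 1 := by
  by_contra hlt
  push Not at hlt
  obtain ⟨τ, _, h⟩ := isLoc_gen (N := N) ι h0 h1
  have := ord_dvd h (v := v) (by omega)
  have h2 : v.ord (je k N - algebraMap k (modularFunctionFieldFullC k N) c) ∣ 1 := this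
  have := Int.le_of_dvd one_pos h2
  omega

theorem ord_je_sub_le_two (ι : k →+* ℂ) :
    v.ord (je k N - algebraMap k (modularFunctionFieldFullC k N) 1728) ≤ 2 := by
  by_contra hlt
  push Not at hlt
  have := ord_dvd (isLoc_I (N := N) ι) (v := v) (by omega)
  have h2 : v.ord (je k N - algebraMap k (modularFunctionFieldFullC k N) 1728) ∣ 2 := this
  have := Int.le_of_dvd two_pos h2
  omega

theorem ord_je_le_three (ι : k →+* ℂ) : v.ord (je k N) ≤ 3 := by
  by_contra hlt
  push Not at hlt
  have := ord_dvd (isLoc_rho (N := N) ι) (v := v) (by omega)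
  have h2 : v.ord (je k N) ∣ 3 := this
  have := Int.le_of_dvd three_pos h2
  omega

theorem neg_ord_je_dvd (ι : k →+* ℂ) (hv : v.ord (je k N) < 0) : -v.ord (je k N) ∣ N := by
  have := ord_dvd (isLoc_cusp (N := N) ι) (v := v) (by rw [v.ord_inv]; omega)
  rw [v.ord_inv] at this
  exact this

theorem neg_ord_je_le (ι : k →+* ℂ) : -v.ord (je k N) ≤ N := by
  rcases lt_or_ge (v.ord (je k N)) 0 with h | h
  · exact Int.le_of_dvd (by exact_mod_cast Nat.pos_of_ne_zero (NeZero.ne N)) (neg_ord_je_dvd v ι h)
  · have : (0 : ℤ) ≤ N := by positivity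
    omega

/-! ### the differential `dj` -/

theorem ordDiff_je_neg (ι : k →+* ℂ) (hv : v.ord (je k N) < 0) :
    v.ordDifferential (KaehlerDifferential.D k _ (je k N)) = v.ord (je k N) - 1 := by
  obtain ⟨x, hx⟩ := exists_centred (isLoc_cusp (N := N) ι) (v := v) (by rw [v.ord_inv]; omega)
  exact ordDifferential_D (sig_const ι (cuspUDN N) x) hx (by omega)

theorem ordDiff_je_pos (ι : k →+* ℂ) {c : k}
    (hv : 0 < v.ord (je k N - algebraMap k (modularFunctionFieldFullC k N) c)) :
    v.ordDifferential (KaehlerDifferential.D k _ (je k N)) =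
      v.ord (je k N - algebraMap k (modularFunctionFieldFullC k N) c) - 1 := by
  obtain ⟨P, _, _, h3⟩ := exists_isLoc (N := N) ι c
  obtain ⟨x, hx⟩ := exists_centred h3 hv
  exact ordDifferential_D_sub (sig_const ι (P.toUDN N) x) hx (by omega)

theorem D_je_ne_zero (ι : k →+* ℂ) :
    KaehlerDifferential.D k (modularFunctionFieldFullC k N) (je k N) ≠ 0 := by
  have h := sig_const (N := N) ι (cuspUDN N) ((1 : SL(2, ℤ)) : Cos N)
  refine D_ne_zero h ?_
  obtain ⟨ξ, h1, h2⟩ := (isLoc_cusp (k := k) (N := N) ι).fib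
  intro h0
  have h3 := h1 ((1 : SL(2, ℤ)) : Cos N)
  rw [map_inv₀] at h3
  have hne : sig ι (cuspUDN N) ((1 : SL(2, ℤ)) : Cos N) (je k N) ≠ 0 := by
    rw [ne_eq, map_eq_zero]
    exact fun h => transcendental_je (k := k) (N := N) (h ▸ isAlgebraic_zero)
  have h4 := HahnSeries.order_mul hne (inv_ne_zero hne)
  rw [mul_inv_cancel₀ hne, HahnSeries.order_one, h0, h3, h2] at h4
  have := (cuspUDN N).e_pos
  omega

end Fermat.Agent.GenusX0
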