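import Fermat.Agent.GenusX0.Count
import Fermat.Prelude.Def_AlgebraicCurve_CanonicalDivisor

/-!
# Orders of differentials in characteristic zero
-/

set_option autoImplicit false

noncomputable section

namespace Fermat.Agent.GenusX0

open AlgebraicCurve Fermat.Agent.Curves Fermat.Agent.ModFun IntermediateField
open scoped KaehlerDifferential

section Theta

variable {L : Type*} [Field L]

/-- `u d/du`. -/
def thetaFun (G : LaurentSeries L) : LaurentSeries L where
  coeff n := (n : L) * G.coeff n
  isPWO_support' := by
    refine G.isPWO_support.mono fun n hn => ?_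
    rw [Function.mem_support] at hn
    exact right_ne_zero_of_mul hn

theorem thetaFun_coeff (G : LaurentSeries L) (n : ℤ) :
    (thetaFun G).coeff n = (n : L) * G.coeff n := rfl

theorem thetaFun_add (G H : LaurentSeries L) : thetaFun (G + H) = thetaFun G + thetaFun H := by
  ext n
  simp only [thetaFun_coeff, HahnSeries.coeff_add, mul_add]

theorem thetaFun_C (c : L) : thetaFun (HahnSeries.C c) = 0 := by
  ext n
  rw [thetaFun_coeff, HahnSeries.C_apply, HahnSeries.coeff_single, HahnSeries.coeff_zero]
  split_ifs with h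
  · simp [h]
  · simp

theorem support_thetaFun_subset (G : LaurentSeries L) : (thetaFun G).support ⊆ G.support := by
  intro n hn
  rw [HahnSeries.mem_support, thetaFun_coeff] at hn
  rw [HahnSeries.mem_support]
  exact right_ne_zero_of_mul hn

theorem thetaFun_mul (G H : LaurentSeries L) :
    thetaFun (G * H) = G * thetaFun H + H * thetaFun G := by
  ext n
  rw [thetaFun_coeff, HahnSeries.coeff_add, mul_comm H (thetaFun G),
    HahnSeries.coeff_mul_left' G.isPWO_support (support_thetaFun_subset G),
    HahnSeries.coeff_mul_right' H.isPWO_support (support_thetaFun_subset H),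
    HahnSeries.coeff_mul, Finset.mul_sum, ← Finset.sum_add_distrib]
  refine Finset.sum_congr rfl fun ij hij => ?_
  rw [Finset.mem_antidiagonal] at hij
  rw [thetaFun_coeff, thetaFun_coeff, ← hij.2.2]
  push_cast
  ring

theorem order_thetaFun [CharZero L] {G : LaurentSeries L} (hG : G.order ≠ 0) :
    thetaFun G ≠ 0 ∧ (thetaFun G).order = G.order := by
  have hG0 : G ≠ 0 := by
    rintro rfl
    exact hG HahnSeries.order_zero
  have h1 : (thetaFun G).coeff G.order ≠ 0 := by
    rw [thetaFun_coeff]
    exact mul_ne_zero (by exact_mod_cast hG) (HahnSeries.coeff_order_eq_zero.not.mpr hG0)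
  have h0 : thetaFun G ≠ 0 := by
    intro h
    rw [h] at h1
    exact h1 (HahnSeries.coeff_zero)
  refine ⟨h0, le_antisymm (HahnSeries.order_le_of_coeff_ne_zero h1) ?_⟩
  apply HahnSeries.order_le_of_coeff_ne_zero
  have h2 := HahnSeries.coeff_order_eq_zero.not.mpr h0
  rw [thetaFun_coeff] at h2
  exact right_ne_zero_of_mul h2

end Theta

section Deriv

variable {k F L : Type*} [Field k] [Field F] [Algebra k F] [Field L]

/-- the module of Laurent series through `σ` -/
def LMod (_σ : F →+* LaurentSeries L) : Type _ := LaurentSeries L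

instance (σ : F →+* LaurentSeries L) : AddCommGroup (LMod σ) :=
  inferInstanceAs (AddCommGroup (LaurentSeries L))

instance (σ : F →+* LaurentSeries L) : Module F (LMod σ) :=
  Module.compHom (LaurentSeries L) σ

instance (σ : F →+* LaurentSeries L) : Module k (LMod σ) :=
  Module.compHom (LMod σ) (algebraMap k F)

instance (σ : F →+* LaurentSeries L) : IsScalarTower k F (LMod σ) where
  smul_assoc a b x := by
    change (a • b) • x = algebraMap k F a • (b • x)
    rw [Algebra.smul_def, mul_smul]

theorem smul_LMod (σ : F →+* LaurentSeries L) (f : F) (x : LaurentSeries L) :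
    (f • (show LMod σ from x) : LMod σ) = (σ f * x : LaurentSeries L) := rfl

/-- The derivation `θ ∘ σ`. -/
def thetaDer (σ : F →+* LaurentSeries L) (ι : k →+* L)
    (hσ : ∀ c, σ (algebraMap k F c) = HahnSeries.C (ι c)) : Derivation k F (LMod σ) where
  toFun f := thetaFun (σ f)
  map_add' f g := by
    rw [map_add, thetaFun_add]
    rfl
  map_smul' c f := by
    change thetaFun (σ (c • f)) = σ (algebraMap k F c) * thetaFun (σ f)
    rw [Algebra.smul_def, map_mul, thetaFun_mul, hσ, thetaFun_C, mul_zero, add_zero]
  map_one_eq_zero' := by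
    change thetaFun (σ 1) = 0
    rw [map_one, ← HahnSeries.C_one, thetaFun_C]
  leibniz' f g := by
    change thetaFun (σ (f * g)) = σ f * thetaFun (σ g) + σ g * thetaFun (σ f)
    rw [map_mul, thetaFun_mul]

theorem thetaDer_apply (σ : F →+* LaurentSeries L) (ι : k →+* L)
    (hσ : ∀ c, σ (algebraMap k F c) = HahnSeries.C (ι c)) (f : F) :
    thetaDer σ ι hσ f = thetaFun (σ f) := rfl

/-- comparison of `D f = h D t`. -/
theorem order_of_smul_D [CharZero L] {σ : F →+* LaurentSeries L} {ι : k →+* L}
    (hσ : ∀ c, σ (algebraMap k F c) = HahnSeries.C (ι c)) {v : Place k F} (hc : Centred σ v)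
    {t f h : F} (ht : v.ord t = 1) (hf : v.ord f ≠ 0)
    (heq : KaehlerDifferential.D k F f = h • KaehlerDifferential.D k F t) :
    h ≠ 0 ∧ v.ord h = v.ord f - 1 := by
  obtain ⟨ε, hε, h1⟩ := hc
  have ht0 : t ≠ 0 := by
    rintro rfl
    simp at ht
  have hf0 : f ≠ 0 := by
    rintro rfl
    simp at hf
  have h2 := congrArg (thetaDer σ ι hσ).liftKaehlerDifferential heq
  rw [map_smul, Derivation.liftKaehlerDifferential_comp_D,
    Derivation.liftKaehlerDifferential_comp_D] at h2
  replace h2 : thetaFun (σ f) = σ h * thetaFun (σ t) := h2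
  have hof : (σ f).order ≠ 0 := by
    rw [h1 f hf0]
    exact mul_ne_zero (by omega) hf
  have hot : (σ t).order ≠ 0 := by
    rw [h1 t ht0, ht]
    omega
  obtain ⟨h3, h4⟩ := order_thetaFun hof
  obtain ⟨h5, h6⟩ := order_thetaFun hot
  have hh0 : h ≠ 0 := by
    rintro rfl
    rw [map_zero, zero_mul] at h2
    exact h3 h2
  refine ⟨hh0, ?_⟩
  have h7 := congrArg HahnSeries.order h2
  rw [h4, HahnSeries.order_mul ((map_ne_zero σ).mpr hh0) h5, h6, h1 f hf0, h1 t ht0, h1 h hh0,
    ht] at h7
  have hε' : (ε : ℤ) ≠ 0 := by omega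
  have h8 : (ε : ℤ) * v.ord f = ε * (v.ord h + 1) := by
    rw [h7]; ring
  have := mul_left_cancel₀ hε' h8
  omega

theorem D_ne_zero [CharZero L] {σ : F →+* LaurentSeries L} {ι : k →+* L}
    (hσ : ∀ c, σ (algebraMap k F c) = HahnSeries.C (ι c)) {f : F} (hf : (σ f).order ≠ 0) :
    KaehlerDifferential.D k F f ≠ 0 := by
  intro h0
  have h2 := congrArg (thetaDer σ ι hσ).liftKaehlerDifferential h0
  rw [Derivation.liftKaehlerDifferential_comp_D, thetaDer_apply, map_zero] at h2
  exact (order_thetaFun hf).1 h2

end Deriv

section Gen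

variable {k F : Type*} [Field k] [Field F] [Algebra k F]

/-- In characteristic zero `Dt` generates the differentials, for every transcendental `t`. -/
theorem span_D_eq_top [CharZero k] [IsFunctionField k F] {t : F} (ht : Transcendental k t) :
    Submodule.span F {KaehlerDifferential.D k F t} = ⊤ := by
  set S := Submodule.span F {KaehlerDifferential.D k F t} with hS
  let d : Derivation k F (Ω[F⁄k] ⧸ S) := (S.mkQ).compDer (KaehlerDifferential.D k F)
  have hdt : d t = 0 := by
    change S.mkQ (KaehlerDifferential.D k F t) = 0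
    rw [Submodule.mkQ_apply, Submodule.Quotient.mk_eq_zero]
    exact Submodule.mem_span_singleton_self _
  have hdpoly : ∀ p : Polynomial k, d (Polynomial.aeval t p) = 0 := by
    intro p
    rw [Derivation.map_aeval, hdt, smul_zero]
  have hdE : ∀ c : k⟮t⟯, d (c : F) = 0 := by
    intro c
    obtain ⟨r, s, h⟩ := (IntermediateField.mem_adjoin_simple_iff k (c : F)).mp c.2
    rw [h]
    rw [Derivation.leibniz_div]
    simp [hdpoly]
  have := finiteDimensional_adjoin_simple ht
  have : CharZero k⟮t⟯ := charZero_of_injective_algebraMap (algebraMap k k⟮t⟯).injective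
  have : Algebra.FormallyUnramified k⟮t⟯ F := Algebra.FormallyUnramified.of_isSeparable k⟮t⟯ F
  let d' : Derivation k⟮t⟯ F (Ω[F⁄k] ⧸ S) :=
    { toFun := d
      map_add' := d.map_add
      map_smul' := by
        intro c f
        rw [Algebra.smul_def, d.leibniz]
        have : d (algebraMap k⟮t⟯ F c) = 0 := hdE c
        rw [this, smul_zero, add_zero]
        exact algebraMap_smul F c (d f)
      map_one_eq_zero' := d.map_one_eq_zero
      leibniz' := d.leibniz }
  have hd' : ∀ f, d f = 0 := by
    intro f
    have h1 : d' f = d'.liftKaehlerDifferential (KaehlerDifferential.D k⟮t⟯ F f) :=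
      (Derivation.liftKaehlerDifferential_comp_D d' f).symm
    have h2 : KaehlerDifferential.D k⟮t⟯ F f = 0 := Subsingleton.elim _ _
    rw [h2, map_zero] at h1
    exact h1
  rw [eq_top_iff, ← KaehlerDifferential.span_range_derivation, Submodule.span_le]
  rintro _ ⟨f, rfl⟩
  have := hd' f
  change S.mkQ (KaehlerDifferential.D k F f) = 0 at this
  rwa [Submodule.mkQ_apply, Submodule.Quotient.mk_eq_zero] at this

theorem exists_dCoord (v : Place k F) :
    ∃ t : F, v.ord t = 1 ∧ v.dCoord = KaehlerDifferential.D k F t :=
  ⟨((IsDiscreteValuationRing.exists_irreducible v.toValuationSubring).choose : F),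
    v.ord_coe_irreducible
      (IsDiscreteValuationRing.exists_irreducible v.toValuationSubring).choose_spec, rfl⟩

theorem dCoordGenerates [CharZero k] [IsAlgClosed k] [IsFunctionField k F] (v : Place k F) :
    v.DCoordGenerates where
  span_eq_top := by
    obtain ⟨t, ht, h⟩ := exists_dCoord v
    rw [h]
    exact span_D_eq_top (transcendental_of_ord_ne_zero (v := v) (by rw [ht]; exact one_ne_zero))

variable [CharZero k] [IsAlgClosed k] [IsFunctionField k F]

/-- order of an exact differential at a place which is the centre of an embedding -/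
theorem ordDifferential_D {L : Type*} [Field L] [CharZero L] {σ : F →+* LaurentSeries L}
    {ι : k →+* L} (hσ : ∀ c, σ (algebraMap k F c) = HahnSeries.C (ι c)) {v : Place k F}
    (hc : Centred σ v) {f : F} (hf : v.ord f ≠ 0) :
    v.ordDifferential (KaehlerDifferential.D k F f) = v.ord f - 1 := by
  have := dCoordGenerates v
  obtain ⟨t, ht, h⟩ := exists_dCoord v
  have h1 := v.differentialCoeff_smul_dCoord (KaehlerDifferential.D k F f)
  rw [h] at h1
  exact (order_of_smul_D hσ hc ht hf h1.symm).2

theorem ordDifferential_D_sub {L : Type*} [Field L] [CharZero L] {σ : F →+* LaurentSeries L}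
    {ι : k →+* L} (hσ : ∀ c, σ (algebraMap k F c) = HahnSeries.C (ι c)) {v : Place k F}
    (hc : Centred σ v) {f : F} {c : k} (hf : v.ord (f - algebraMap k F c) ≠ 0) :
    v.ordDifferential (KaehlerDifferential.D k F f) = v.ord (f - algebraMap k F c) - 1 := by
  have h4 := ordDifferential_D hσ hc hf
  rwa [map_sub, Derivation.map_algebraMap, sub_zero] at h4

end Gen

end Fermat.Agent.GenusX0
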