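import Fermat.Agent.GenusX0.Cusp
import Fermat.Agent.Curves.Modular

/-!
# The embeddings of the modular function field attached to cosets
-/

set_option autoImplicit false

noncomputable section

open HahnSeries ModularCurve UpperHalfPlane Filter Topology Function.Periodic IntermediateField
open scoped MatrixGroups Manifold

namespace Fermat.Agent.GenusX0

open Fermat.Agent.ModFun

variable {k : Type*} [Field k]

open scoped IntermediateField.algebraAdjoinAdjoin in
instance instAlgebraBk (k : Type*) [Field k] (N : ℕ) :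
    Algebra (Bk k N) (modularFunctionFieldFullC k N) :=
  inferInstanceAs (Algebra (Algebra.adjoin k (divisorExpansionsC k N))
    (adjoin k (divisorExpansionsC k N)))

theorem coe_algebraMap_Bk {N : ℕ} (x : Bk k N) :
    (algebraMap (Bk k N) (modularFunctionFieldFullC k N) x : LaurentSeries k) = x := rfl

open scoped IntermediateField.algebraAdjoinAdjoin in
instance instFracBk (k : Type*) [Field k] (N : ℕ) :
    IsFractionRing (Bk k N) (modularFunctionFieldFullC k N) :=
  inferInstanceAs (IsFractionRing (Algebra.adjoin k (divisorExpansionsC k N))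
    (adjoin k (divisorExpansionsC k N)))

variable (ι : k →+* ℂ) {N : ℕ} (U : UDN N)

/-- The embedding attached to `g`. -/
def sigma (g : SL(2, ℤ)) : modularFunctionFieldFullC k N →+* LaurentSeries ℂ :=
  IsFractionRing.lift (expB_injective ι U g)

theorem sigma_algebraMap (g : SL(2, ℤ)) (x : Bk k N) :
    sigma ι U g (algebraMap (Bk k N) (modularFunctionFieldFullC k N) x) = expB ι U g x :=
  IsFractionRing.lift_algebraMap _ _

theorem ringHom_ext_Bk {M : Type*} [Field M] {f g : modularFunctionFieldFullC k N →+* M}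
    (h : ∀ x : Bk k N, f (algebraMap _ _ x) = g (algebraMap _ _ x)) : f = g := by
  apply IsLocalization.ringHom_ext (nonZeroDivisors (Bk k N))
  ext x
  exact h x

theorem expB_eq {g : SL(2, ℤ)} {x : Bk k N} {F : LaurentSeries ℂ}
    (h : HasExp U.toUD (fun τ => fn ι (x : LaurentSeries k) (g • τ)) F) : expB ι U g x = F :=
  (expB_spec ι U g x).unique h

theorem sigma_const (g : SL(2, ℤ)) (c : k) :
    sigma ι U g (algebraMap k (modularFunctionFieldFullC k N) c) = HahnSeries.C (ι c) := by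
  have h1 : algebraMap k (modularFunctionFieldFullC k N) c =
      algebraMap (Bk k N) (modularFunctionFieldFullC k N) (algebraMap k (Bk k N) c) := rfl
  rw [h1, sigma_algebraMap]
  apply expB_eq
  have h2 : (fun τ : ℍ => fn ι ((algebraMap k (Bk k N) c : Bk k N) : LaurentSeries k) (g • τ)) =
      fun _ => ι c := by
    funext τ
    exact fn_algebraMap ι c _
  rw [h2]
  exact hasExp_const _ _

/-- the element `j(dτ)` -/
def jel (k : Type*) [Field k] {N : ℕ} (d : ℕ) [NeZero d] (hd : d ∣ N) :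
    modularFunctionFieldFullC k N :=
  ⟨qExpand k d (jqModC k), jqModCd_mem_full k N hd⟩

theorem sigma_jel (g : SL(2, ℤ)) (d : ℕ) [NeZero d] (hd : d ∣ N) :
    HasExp U.toUD (fun τ => jfun (dm d (g • τ))) (sigma ι U g (jel k d hd)) := by
  let x : Bk k N := ⟨qExpand k d (jqModC k), Algebra.subset_adjoin (mem_divisorExpansionsC k N hd)⟩
  have h1 : jel k d hd = algebraMap (Bk k N) (modularFunctionFieldFullC k N) x := rfl
  rw [h1, sigma_algebraMap]
  have h2 := expB_spec ι U g x
  have h3 : (fun τ : ℍ => fn ι (x : LaurentSeries k) (g • τ)) =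
      fun τ => jfun (dm d (g • τ)) := by
    funext τ
    exact fn_gen ι d _
  rwa [h3] at h2

/-- the element `j` -/
def je (k : Type*) [Field k] (N : ℕ) : modularFunctionFieldFullC k N :=
  ⟨jqModC k, jqModC_mem_full k N⟩

theorem je_eq (k : Type*) [Field k] (N : ℕ) : je k N = jel k 1 (one_dvd N) := by
  apply Subtype.ext
  exact (qExpand_one_apply (jqModC k)).symm

theorem sigma_je (g : SL(2, ℤ)) : HasExp U.toUD jfun (sigma ι U g (je k N)) := by
  have h := sigma_jel ι U g 1 (one_dvd N)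
  rw [← je_eq] at h
  have h3 : (fun τ : ℍ => jfun (dm 1 (g • τ))) = jfun := by
    funext τ
    rw [dm_one, jfun_smul]
  rwa [h3] at h

/-- `σ_{gs} = twist ∘ σ_g` -/
theorem sigma_mul_s (g : SL(2, ℤ)) :
    sigma ι U (g * U.s) = (twist U.ζ).comp (sigma ι U g) := by
  apply ringHom_ext_Bk
  intro x
  rw [RingHom.comp_apply, sigma_algebraMap, sigma_algebraMap]
  apply expB_eq
  have h := (expB_spec ι U g x).twist
  simp only [← mul_smul] at h
  exact h

theorem fn_Gamma0 {x : LaurentSeries k} (hx : x ∈ Bk k N) {γ : SL(2, ℤ)}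
    (hγ : γ ∈ CongruenceSubgroup.Gamma0 N) (τ : ℍ) : fn ι x (γ • τ) = fn ι x τ := by
  induction hx using Algebra.adjoin_induction with
  | mem x hx =>
    obtain ⟨d, hd, hdN, rfl⟩ := hx
    rw [fn_gen, fn_gen, jfun_dm_Gamma0 d hdN hγ]
  | algebraMap c => rw [fn_algebraMap, fn_algebraMap]
  | add x y hx' hy' hx hy =>
    rw [fn_add ι (conv_of_mem_Bk ι hx') (conv_of_mem_Bk ι hy'),
      fn_add ι (conv_of_mem_Bk ι hx') (conv_of_mem_Bk ι hy'), hx, hy]
  | mul x y hx' hy' hx hy =>
    rw [fn_mul ι (conv_of_mem_Bk ι hx') (conv_of_mem_Bk ι hy'),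
      fn_mul ι (conv_of_mem_Bk ι hx') (conv_of_mem_Bk ι hy'), hx, hy]

theorem sigma_Gamma0_mul {γ : SL(2, ℤ)} (hγ : γ ∈ CongruenceSubgroup.Gamma0 N) (g : SL(2, ℤ)) :
    sigma ι U (γ * g) = sigma ι U g := by
  apply ringHom_ext_Bk
  intro x
  rw [sigma_algebraMap, sigma_algebraMap]
  apply expB_eq
  have h := expB_spec ι U g x
  have h3 : (fun τ : ℍ => fn ι (x : LaurentSeries k) ((γ * g) • τ)) =
      fun τ => fn ι (x : LaurentSeries k) (g • τ) := by
    funext τ
    rw [mul_smul, fn_Gamma0 ι x.2 hγ]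
  rwa [h3]

theorem mdiff_jfun_dm (d : ℕ) [NeZero d] : MDiff (fun τ : ℍ => jfun (dm d τ)) := by
  have h := mdiff_fn (N := d) (RingHom.id ℂ) (x := qExpand ℂ d (jqModC ℂ))
    (Algebra.subset_adjoin (mem_divisorExpansionsC ℂ d dvd_rfl))
  have h3 : (fun τ : ℍ => jfun (dm d τ)) = fn (RingHom.id ℂ) (qExpand ℂ d (jqModC ℂ)) := by
    funext τ
    rw [fn_gen]
  rwa [h3]

theorem mem_Gamma0_of_sigma_eq [NeZero N] {g g' : SL(2, ℤ)}
    (h : sigma ι U g = sigma (k := k) ι U g') : g * g'⁻¹ ∈ CongruenceSubgroup.Gamma0 N := by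
  apply mem_Gamma0_of_jfun N
  have h1 := sigma_jel ι U g N dvd_rfl
  have h2 := sigma_jel ι U g' N dvd_rfl
  rw [h] at h1
  have h3 : ∀ τ, U.u τ ≠ 0 → jfun (dm N (g • τ)) - jfun (dm N (g' • τ)) = 0 := by
    intro τ hτ
    have h4 := h1.2 τ hτ
    have h5 := h2.2 τ hτ
    rw [sub_eq_zero]
    exact h4.symm.trans h5
  have h6 := U.dense (fun τ => jfun (dm N (g • τ)) - jfun (dm N (g' • τ))) ?_ h3
  · intro τ
    have h7 := h6 (g'⁻¹ • τ)
    rw [smul_inv_smul, ← mul_smul, sub_eq_zero] at h7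
    exact h7
  · refine MDifferentiable.sub ?_ ?_
    · intro τ
      exact ((mdiff_jfun_dm N) (g • τ)).comp τ (mdifferentiable_smul (g := (g : GL (Fin 2) ℝ))
        (by simp) τ)
    · intro τ
      exact ((mdiff_jfun_dm N) (g' • τ)).comp τ (mdifferentiable_smul (g := (g' : GL (Fin 2) ℝ))
        (by simp) τ)

/-- The coset space. -/
abbrev Cos (N : ℕ) : Type := SL(2, ℤ) ⧸ CongruenceSubgroup.Gamma0 N

/-- The embedding attached to a coset `gΓ₀(N)`: `f ↦ f ∘ g⁻¹`. -/
def sig (x : Cos N) : modularFunctionFieldFullC k N →+* LaurentSeries ℂ :=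
  sigma ι U (x.out)⁻¹

theorem sig_mk (g : SL(2, ℤ)) : sig (k := k) ι U (g : Cos N) = sigma ι U g⁻¹ := by
  unfold sig
  obtain ⟨γ, hγ⟩ := QuotientGroup.mk_out_eq_mul (CongruenceSubgroup.Gamma0 N) g
  rw [hγ, mul_inv_rev]
  exact sigma_Gamma0_mul ι U (inv_mem γ.2) _

theorem sig_injective [NeZero N] : Function.Injective (sig (k := k) ι U) := by
  intro x y hxy
  induction x using QuotientGroup.induction_on with
  | H g =>
    induction y using QuotientGroup.induction_on with
    | H g' =>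
      rw [sig_mk, sig_mk] at hxy
      have h := mem_Gamma0_of_sigma_eq ι U hxy
      rw [QuotientGroup.eq]
      simpa using h

theorem sig_s (x : Cos N) : sig (k := k) ι U (U.s⁻¹ • x) = (twist U.ζ).comp (sig ι U x) := by
  induction x using QuotientGroup.induction_on with
  | H g =>
    have h1 : U.s⁻¹ • (g : Cos N) = ((U.s⁻¹ * g : SL(2, ℤ)) : Cos N) := rfl
    rw [h1, sig_mk, sig_mk, mul_inv_rev, inv_inv, sigma_mul_s]

theorem sig_const (x : Cos N) (c : k) :
    sig ι U x (algebraMap k (modularFunctionFieldFullC k N) c) = HahnSeries.C (ι c) :=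
  sigma_const ι U _ c

theorem sig_je (x : Cos N) : HasExp U.toUD jfun (sig ι U x (je k N)) :=
  sigma_je ι U _

end Fermat.Agent.GenusX0
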