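import Fermat.Agent.GenusX0.Cayley
import Fermat.Agent.GenusX0.Sigma
import Fermat.Agent.GenusX0.Diff

/-!
# Ramification of the modular function field over the `j`-line
-/

set_option autoImplicit false

noncomputable section

open HahnSeries ModularCurve UpperHalfPlane IntermediateField AlgebraicCurve
open scoped MatrixGroups

namespace Fermat.Agent.GenusX0

open Fermat.Agent.ModFun Fermat.Agent.DimS2 Fermat.Agent.Curves

variable {k : Type*} [Field k] [IsAlgClosed k] [CharZero k] (ι : k →+* ℂ) {N : ℕ} [NeZero N]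

instance isFunctionField_FN (k : Type*) [Field k] [IsAlgClosed k] [CharZero k] (N : ℕ) [NeZero N] :
    IsFunctionField k (modularFunctionFieldFullC k N) :=
  isFunctionField_fullC k N (by exact_mod_cast NeZero.ne N)

instance finite_Cos (N : ℕ) [NeZero N] : Finite (Cos N) := by
  have h := Gamma0Comb.card_quot N
  exact (Nat.card_pos_iff.mp (by rw [h]; exact Nat.pos_of_ne_zero (dedekindPsi_pos (NeZero.ne N)))).2

instance fintype_Cos (N : ℕ) [NeZero N] : Fintype (Cos N) := Fintype.ofFinite _

theorem card_Cos (N : ℕ) [NeZero N] : Fintype.card (Cos N) = dedekindPsi N := by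
  rw [← Nat.card_eq_fintype_card]
  exact Gamma0Comb.card_quot N

/-- `z` is a local parameter of the `j`-line at the point described by `U`. -/
structure IsLoc (U : UDN N) (z : modularFunctionFieldFullC k N) : Prop where
  tr : Transcendental k z
  deg : Module.finrank k⟮z⟯ (modularFunctionFieldFullC k N) = dedekindPsi N
  fib : ∃ ξ : LaurentSeries ℂ, (∀ x, sig ι U x z = ξ) ∧ ξ.order = U.e

variable {ι} {U : UDN N} {z : modularFunctionFieldFullC k N}

omit [IsAlgClosed k] [CharZero k] in
/-- The centre map. -/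
def ctr (h : IsLoc ι U z) : Cos N → Place k (modularFunctionFieldFullC k N) :=
  (exists_centre (sig ι U) ι (sig_const ι U) h.fib.choose h.fib.choose_spec.1 (by
    rw [h.fib.choose_spec.2]
    exact_mod_cast U.e_pos.ne')).choose

omit [IsAlgClosed k] [CharZero k] in
theorem ctr_spec (h : IsLoc ι U z) (x : Cos N) : Centred (sig ι U x) (ctr h x) :=
  (exists_centre (sig ι U) ι (sig_const ι U) h.fib.choose h.fib.choose_spec.1 (by
    rw [h.fib.choose_spec.2]
    exact_mod_cast U.e_pos.ne')).choose_spec x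

omit [IsAlgClosed k] [CharZero k] in
theorem ctr_pos (h : IsLoc ι U z) (x : Cos N) : 0 < (ctr h x).ord z := by
  apply (ctr_spec h x).ord_pos
  obtain ⟨ξ, h1, h2⟩ := h.fib
  rw [h1, h2]
  exact_mod_cast U.e_pos

theorem card_ctr_fibre [DecidableEq (Place k (modularFunctionFieldFullC k N))] (h : IsLoc ι U z)
    (v : Place k (modularFunctionFieldFullC k N)) (hv : 0 < v.ord z) :
    ((Finset.univ.filter fun x => ctr h x = v).card : ℤ) = v.ord z := by
  obtain ⟨ξ, h1, h2⟩ := h.fib
  exact card_fibre (sig ι U) (sig_injective ι U) ι (sig_const ι U) ξ h.tr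
    (by rw [card_Cos, h.deg]) h1 (by rw [h2]; exact_mod_cast U.e_pos) (ctr h) (ctr_spec h) v hv

theorem exists_ctr_eq (h : IsLoc ι U z) {v : Place k (modularFunctionFieldFullC k N)}
    (hv : 0 < v.ord z) : ∃ x, ctr h x = v := by
  classical
  have h1 := card_ctr_fibre h v hv
  have h2 : 0 < (Finset.univ.filter fun x => ctr h x = v).card := by omega
  obtain ⟨x, hx⟩ := Finset.card_pos.mp h2
  exact ⟨x, (Finset.mem_filter.mp hx).2⟩

theorem ctr_eq_iff (h : IsLoc ι U z) (x y : Cos N) :
    ctr h x = ctr h y ↔ ∃ i : ℕ, y = (U.s⁻¹) ^ i • x := by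
  classical
  obtain ⟨ξ, h1, h2⟩ := h.fib
  exact centre_eq_iff (sig ι U) (sig_injective ι U) ι (sig_const ι U) ξ h.tr
    (by rw [card_Cos, h.deg]) h1 U.e_pos h2 (ctr h) (ctr_spec h) U.s U.ζ U.prim (sig_s ι U) x y

/-- Every place above the point is the centre of an embedding. -/
theorem exists_centred (h : IsLoc ι U z) {v : Place k (modularFunctionFieldFullC k N)}
    (hv : 0 < v.ord z) : ∃ x, Centred (sig ι U x) v := by
  obtain ⟨x, rfl⟩ := exists_ctr_eq h hv
  exact ⟨x, ctr_spec h x⟩

theorem ord_dvd (h : IsLoc ι U z) {v : Place k (modularFunctionFieldFullC k N)}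
    (hv : 0 < v.ord z) : v.ord z ∣ U.e := by
  obtain ⟨x, ε, hε, hx⟩ := exists_centred h hv
  obtain ⟨ξ, h1, h2⟩ := h.fib
  have h3 := hx z (fun h0 => h.tr (h0 ▸ isAlgebraic_zero))
  rw [h1, h2] at h3
  exact ⟨ε, by rw [h3]; ring⟩

/-- number of places = number of orbits -/
theorem card_zeros_eq (h : IsLoc ι U z) :
    (zeros k z).card = Nat.card (MulAction.orbitRel.Quotient (Subgroup.zpowers U.s) (Cos N)) := by
  classical
  rw [← Nat.card_eq_finsetCard]
  symm
  refine Nat.card_congr (Equiv.ofBijective (Quotient.lift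
    (fun x : Cos N => (⟨ctr h x, mem_zeros.mpr (ctr_pos h x)⟩ : zeros k z)) ?_) ⟨?_, ?_⟩)
  · intro x y hxy
    apply Subtype.ext
    change ctr h x = ctr h y
    obtain ⟨⟨g, hg⟩, hgy⟩ := (MulAction.orbitRel_apply.mp hxy)
    obtain ⟨i, rfl⟩ := Subgroup.mem_zpowers_iff.mp hg
    -- x = s^i y
    have hgy' : x = U.s ^ i • y := hgy.symm
    obtain ⟨n, rfl | rfl⟩ := i.eq_nat_or_neg
    · rw [ctr_eq_iff]
      refine ⟨n, ?_⟩
      rw [hgy', zpow_natCast, ← mul_smul, inv_pow, inv_mul_cancel, one_smul]
    · symm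
      rw [ctr_eq_iff]
      refine ⟨n, ?_⟩
      rw [hgy', zpow_neg, zpow_natCast, inv_pow]
  · intro x y
    induction x using Quotient.inductionOn with
    | h x =>
      induction y using Quotient.inductionOn with
      | h y =>
        intro hxy
        have hxy' : ctr h x = ctr h y := congrArg Subtype.val hxy
        rw [ctr_eq_iff] at hxy'
        obtain ⟨i, hi⟩ := hxy'
        apply Quotient.sound
        change MulAction.orbitRel _ _ x y
        rw [MulAction.orbitRel_apply]
        refine ⟨⟨U.s ^ (i : ℤ), Subgroup.mem_zpowers_iff.mpr ⟨i, rfl⟩⟩, ?_⟩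
        change U.s ^ (i : ℤ) • y = x
        rw [hi, zpow_natCast, ← mul_smul, inv_pow, mul_inv_cancel, one_smul]
  · rintro ⟨v, hv⟩
    obtain ⟨x, hx⟩ := exists_ctr_eq h (mem_zeros.mp hv)
    exact ⟨Quotient.mk _ x, Subtype.ext hx⟩

/-- number of unramified places = number of fixed points -/
theorem card_unram_eq [DecidableEq (Place k (modularFunctionFieldFullC k N))] (h : IsLoc ι U z) :
    ((zeros k z).filter fun v => v.ord z = 1).card = Nat.card {x : Cos N // U.s • x = x} := by
  rw [← Nat.card_eq_finsetCard]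
  symm
  have hfix : ∀ x : Cos N, U.s • x = x ↔ (ctr h x).ord z = 1 := by
    intro x
    have h1 := card_ctr_fibre h (ctr h x) (ctr_pos h x)
    constructor
    · intro hx
      rw [← h1]
      have h2 : (Finset.univ.filter fun y => ctr h y = ctr h x) = {x} := by
        ext y
        rw [Finset.mem_filter, Finset.mem_singleton]
        constructor
        · rintro ⟨_, hy⟩
          rw [eq_comm, ctr_eq_iff] at hy
          obtain ⟨i, hi⟩ := hy
          have h3 : ∀ i : ℕ, (U.s⁻¹) ^ i • x = x := by
            intro i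
            induction i with
            | zero => rw [pow_zero, one_smul]
            | succ i ih =>
              rw [pow_succ, mul_smul]
              have : U.s⁻¹ • x = x := by
                rw [inv_smul_eq_iff]
                exact hx.symm
              rw [this, ih]
          rw [hi, h3]
        · rintro rfl
          exact ⟨Finset.mem_univ _, rfl⟩
      rw [h2, Finset.card_singleton]
      rfl
    · intro hx
      rw [hx] at h1
      have h2 : (Finset.univ.filter fun y => ctr h y = ctr h x).card = 1 := by exact_mod_cast h1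
      obtain ⟨a, ha⟩ := Finset.card_eq_one.mp h2
      have h3 : x ∈ Finset.univ.filter fun y => ctr h y = ctr h x :=
        Finset.mem_filter.mpr ⟨Finset.mem_univ _, rfl⟩
      have h4 : U.s⁻¹ • x ∈ Finset.univ.filter fun y => ctr h y = ctr h x := by
        refine Finset.mem_filter.mpr ⟨Finset.mem_univ _, ?_⟩
        rw [eq_comm, ctr_eq_iff]
        exact ⟨1, by rw [pow_one]⟩
      rw [ha, Finset.mem_singleton] at h3 h4
      have h5 : U.s⁻¹ • x = x := by rw [h4, ← h3]
      rw [inv_smul_eq_iff] at h5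
      exact h5.symm
  refine Nat.card_congr (Equiv.ofBijective (fun x : {x : Cos N // U.s • x = x} =>
    (⟨ctr h x.1, Finset.mem_filter.mpr ⟨mem_zeros.mpr (ctr_pos h x.1), (hfix x.1).mp x.2⟩⟩ :
      (zeros k z).filter fun v => v.ord z = 1)) ⟨?_, ?_⟩)
  · rintro ⟨x, hx⟩ ⟨y, hy⟩ hxy
    apply Subtype.ext
    have hxy' : ctr h x = ctr h y := congrArg Subtype.val hxy
    rw [ctr_eq_iff] at hxy'
    obtain ⟨i, hi⟩ := hxy'
    have h3 : ∀ i : ℕ, (U.s⁻¹) ^ i • x = x := by
      intro i
      induction i with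
      | zero => rw [pow_zero, one_smul]
      | succ i ih =>
        rw [pow_succ, mul_smul]
        have : U.s⁻¹ • x = x := by
          rw [inv_smul_eq_iff]
          exact hx.symm
        rw [this, ih]
    rw [h3] at hi
    exact hi.symm
  · rintro ⟨v, hv⟩
    obtain ⟨h1, h2⟩ := Finset.mem_filter.mp hv
    obtain ⟨x, hx⟩ := exists_ctr_eq h (mem_zeros.mp h1)
    refine ⟨⟨x, (hfix x).mpr (by rw [hx]; exact h2)⟩, Subtype.ext hx⟩

theorem sum_zeros_eq (h : IsLoc ι U z) : ∑ v ∈ zeros k z, v.ord z = dedekindPsi N := by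
  rw [sum_zeros h.tr, h.deg]

/-- for prime `e`: `e · #places = ψ + (e-1) #fixed`. -/
theorem card_zeros_prime (h : IsLoc ι U z) (hp : U.e.Prime) :
    U.e * (zeros k z).card = dedekindPsi N + (U.e - 1) * Nat.card {x : Cos N // U.s • x = x} := by
  classical
  rw [← card_unram_eq h]
  have h1 := sum_zeros_eq h
  have h2 : ∀ v ∈ zeros k z, v.ord z = if v.ord z = 1 then 1 else (U.e : ℤ) := by
    intro v hv
    have hpos := mem_zeros.mp hv
    have hd := ord_dvd h hpos
    obtain ⟨m, hm⟩ := Int.eq_ofNat_of_zero_le hpos.le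
    rw [hm] at hd ⊢
    rcases (Nat.dvd_prime hp).mp (by exact_mod_cast hd : m ∣ U.e) with h3 | h3
    · rw [h3]; simp
    · rw [h3]
      split_ifs with h4
      · exact h4
      · rfl
  rw [Finset.sum_congr rfl h2, Finset.sum_ite, Finset.sum_const, Finset.sum_const, nsmul_eq_mul,
    nsmul_eq_mul, mul_one] at h1
  have h3 : (zeros k z).card = ((zeros k z).filter fun v => v.ord z = 1).card +
      ((zeros k z).filter fun v => ¬ v.ord z = 1).card :=
    (Finset.card_filter_add_card_filter_not _).symm
  have hp1 := hp.one_lt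
  zify [hp.one_le]
  rw [h3]
  push_cast
  rw [← h1]
  ring

end Fermat.Agent.GenusX0
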