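import Fermat.Agent.GenusX0.JDeriv

/-!
# Orders of `j - j(τ₀)`, surjectivity of `j`
-/

set_option autoImplicit false

noncomputable section

open HahnSeries ModularCurve UpperHalfPlane Filter Topology Function.Periodic
open scoped MatrixGroups ModularForm Manifold Derivative

namespace Fermat.Agent.GenusX0

open Fermat.Agent.ModFun Fermat.Agent.DimS2

theorem inv_jfun_sub (a : ℂ) (τ : ℍ) : (jfun τ - a)⁻¹ =
    qParam 1 τ * (pev Hj (qParam 1 τ) - a * qParam 1 τ)⁻¹ := by
  have hq0 : qParam 1 (τ : ℂ) ≠ 0 := qParam_ne_zero _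
  rw [jfun_eq]
  have : (qParam 1 (τ : ℂ))⁻¹ * pev Hj (qParam 1 τ) - a =
      (qParam 1 (τ : ℂ))⁻¹ * (pev Hj (qParam 1 τ) - a * qParam 1 τ) := by
    field_simp
  rw [this, mul_inv, inv_inv]

theorem tendsto_inv_jfun_sub (a : ℂ) : Tendsto (fun τ : ℍ => (jfun τ - a)⁻¹) atImInfty (𝓝 0) := by
  simp_rw [inv_jfun_sub]
  have h0 : (0 : ℂ) ∈ Metric.ball (0 : ℂ) 1 := by simp
  have c2 : ContinuousAt (pev Hj) 0 :=
    (differentiableOn_pev pconv_Hj).continuousOn.continuousAt (Metric.isOpen_ball.mem_nhds h0)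
  have c : ContinuousAt (fun z : ℂ => z * (pev Hj z - a * z)⁻¹) 0 := by
    refine continuousAt_id.mul (ContinuousAt.inv₀ (c2.sub (continuousAt_const.mul continuousAt_id)) ?_)
    simp [pev_Hj_zero]
  have h1 := c.tendsto.comp (UpperHalfPlane.qParam_tendsto_atImInfty zero_lt_one)
  rw [zero_mul] at h1
  exact h1

theorem exists_jfun_eq (a : ℂ) : ∃ τ : ℍ, jfun τ = a := by
  by_contra! h
  have hne : ∀ τ, jfun τ - a ≠ 0 := fun τ => sub_ne_zero.mpr (h τ)
  have hf : IsL1 0 (fun τ => (jfun τ - a)⁻¹) :=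
    { slash := by
        intro γ
        ext τ
        rw [ModularForm.SL_slash_apply]
        simp only [zpow_zero, neg_zero, mul_one]
        rw [jfun_smul]
      holo := by
        have h1 := mdiff_jfun
        rw [UpperHalfPlane.mdifferentiable_iff] at h1 ⊢
        have h2 : DifferentiableOn ℂ (fun z => ((jfun ∘ ofComplex) z - a)⁻¹) {z | 0 < z.im} :=
          (h1.sub_const a).inv (fun z hz => by
            simp only [Function.comp_apply]
            exact hne _)
        exact h2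
      bdd := (tendsto_inv_jfun_sub a).isBigO_one (F := ℝ) }
  obtain ⟨c, hc⟩ := ModularFormClass.levelOne_weight_zero_const hf.toMF
  have hc' : ∀ τ, (jfun τ - a)⁻¹ = c := fun τ => congrFun hc τ
  have h1 := tendsto_inv_jfun_sub a
  simp_rw [hc'] at h1
  have h2 : c = 0 := tendsto_nhds_unique tendsto_const_nhds h1
  have := hc' UpperHalfPlane.I
  rw [h2] at this
  exact inv_ne_zero (hne _) this

theorem e6_I : e6 UpperHalfPlane.I = 0 := by
  have hz : ModularGroup.S • UpperHalfPlane.I = UpperHalfPlane.I := by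
    rw [modular_S_smul]
    ext
    simp
  have h := e6_isL1.apply_smul ModularGroup.S UpperHalfPlane.I
  rw [hz, ModularGroup.denom_S, UpperHalfPlane.coe_I] at h
  have e6' : Complex.I ^ (6 : ℤ) = -1 := by
    have e2 : Complex.I ^ 2 = -1 := Complex.I_sq
    have e4 : Complex.I ^ 4 = 1 := Complex.I_pow_four
    have : Complex.I ^ (6 : ℕ) = -1 := by
      rw [show (6:ℕ) = 4 + 2 by norm_num, _root_.pow_add, e4, e2]; ring
    exact_mod_cast this
  rw [e6'] at h
  linear_combination h / 2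

theorem ST_rho : (ModularGroup.S * ModularGroup.T) • rho = rho := by
  have hr := rho_eq
  rw [mul_smul, modular_T_smul, modular_S_smul]
  ext
  simp only [UpperHalfPlane.coe_vadd]
  push_cast
  apply inv_eq_of_mul_eq_one_right
  linear_combination -hr

theorem denom_ST (τ : ℍ) :
    denom ((ModularGroup.S * ModularGroup.T : SL(2,ℤ)) : GL (Fin 2) ℝ) τ = τ + 1 := by
  rw [ModularGroup.denom_apply]
  have h10 : (ModularGroup.S * ModularGroup.T : SL(2,ℤ)) 1 0 = 1 := by decide
  have h11 : (ModularGroup.S * ModularGroup.T : SL(2,ℤ)) 1 1 = 1 := by decide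
  rw [h10, h11]
  simp

theorem e4_rho : e4 rho = 0 := by
  have hr := rho_eq
  have h := e4_isL1.apply_smul (ModularGroup.S * ModularGroup.T) rho
  rw [ST_rho, denom_ST] at h
  have e2 : ((rho : ℂ) + 1) ^ 2 = rho := by linear_combination hr
  have e4' : ((rho : ℂ) + 1) ^ (4 : ℤ) = -1 - rho := by
    have : ((rho : ℂ) + 1) ^ (4 : ℕ) = -1 - rho := by
      rw [show (4:ℕ) = 2 * 2 by norm_num, pow_mul, e2]; linear_combination hr
    exact_mod_cast this
  rw [e4'] at h
  have h2 : (rho + 2 : ℂ) * e4 rho = 0 := by linear_combination h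
  rcases mul_eq_zero.mp h2 with h3 | h3
  · exfalso
    have h4 := congrArg Complex.re h3
    have r1 : (rho : ℂ).re = -1/2 := rfl
    rw [Complex.add_re, r1] at h4
    norm_num at h4
  · exact h3

theorem jfun_mul_disc (τ : ℍ) : jfun τ * ModularForm.discriminant τ = e4 τ ^ 3 := by
  rw [jfun, div_mul_cancel₀ _ (ModularForm.discriminant_ne_zero τ)]
  rfl

theorem jfun_sub_mul_disc (τ : ℍ) : (jfun τ - 1728) * ModularForm.discriminant τ = e6 τ ^ 2 := by
  have h1 := jfun_mul_disc τ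
  have h2 := disc_eq τ
  linear_combination h1 - 1728 * h2

theorem jfun_rho : jfun rho = 0 := by
  have := jfun_mul_disc rho
  rw [e4_rho] at this
  have h := ModularForm.discriminant_ne_zero rho
  simpa [h] using this

theorem jfun_I : jfun UpperHalfPlane.I = 1728 := by
  have := jfun_sub_mul_disc UpperHalfPlane.I
  rw [e6_I] at this
  have h := ModularForm.discriminant_ne_zero UpperHalfPlane.I
  have h2 : jfun UpperHalfPlane.I - 1728 = 0 := by simpa [h] using this
  linear_combination h2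

theorem analyticAt_of_mdiff {f : ℍ → ℂ} (hf : MDiff f) (τ : ℍ) :
    AnalyticAt ℂ (f ∘ ofComplex) (τ : ℂ) :=
  (UpperHalfPlane.mdifferentiable_iff.mp hf).analyticAt
    (isOpen_upperHalfPlaneSet.mem_nhds τ.im_pos)

theorem order_ne_top_of_mdiff {f : ℍ → ℂ} (hf : MDiff f) (hf0 : f ≠ 0) (τ : ℍ) :
    analyticOrderAt (f ∘ ofComplex) (τ : ℂ) ≠ ⊤ := by
  intro h
  apply hf0
  rw [analyticOrderAt_eq_top] at h
  apply UpperHalfPlane.eq_zero_of_frequently (τ := τ) hf
  have h1 : ∀ᶠ z : ℍ in 𝓝 τ, f z = 0 := by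
    have h2 := (UpperHalfPlane.continuous_coe.tendsto τ).eventually h
    filter_upwards [h2] with z hz
    simpa using hz
  exact (h1.filter_mono nhdsWithin_le_nhds).frequently

theorem analyticAt_disc (τ : ℍ) :
    AnalyticAt ℂ (ModularForm.discriminant ∘ ofComplex) (τ : ℂ) :=
  analyticAt_of_mdiff (isL1_coe_cusp CuspForm.discriminant).holo τ

theorem order_disc (τ : ℍ) :
    analyticOrderAt (ModularForm.discriminant ∘ ofComplex) (τ : ℂ) = 0 := by
  rw [(analyticAt_disc τ).analyticOrderAt_eq_zero]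
  simp [ModularForm.discriminant_ne_zero τ]

theorem eventually_upper (τ : ℍ) : ∀ᶠ z : ℂ in 𝓝 (τ : ℂ), 0 < z.im :=
  isOpen_upperHalfPlaneSet.mem_nhds τ.im_pos

theorem order_deriv_j (τ : ℍ) : analyticOrderAt (deriv (jfun ∘ ofComplex)) (τ : ℂ) =
    2 * analyticOrderAt (e4 ∘ ofComplex) (τ : ℂ) + analyticOrderAt (e6 ∘ ofComplex) (τ : ℂ) := by
  obtain ⟨c, hc0, hc⟩ := exists_const
  have aj := analyticAt_of_mdiff mdiff_jfun τ
  have a4 := analyticAt_of_mdiff e4_isL1.holo τ
  have a6 := analyticAt_of_mdiff e6_isL1.holo τ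
  have aΔ := analyticAt_disc τ
  have h1 : (ModularForm.discriminant ∘ ofComplex) * deriv (jfun ∘ ofComplex) =ᶠ[𝓝 (τ : ℂ)]
      (fun _ => 2 * Real.pi * Complex.I * c) * ((e4 ∘ ofComplex) ^ 2 * (e6 ∘ ofComplex)) := by
    filter_upwards [eventually_upper τ] with z hz
    have h2 := hc ⟨z, hz⟩
    unfold Derivative.normalizedDerivOfComplex at h2
    simp only [Pi.mul_apply, Pi.pow_apply, Function.comp_apply, ofComplex_apply_of_im_pos hz]
    have h3 : (2 * Real.pi * Complex.I : ℂ) ≠ 0 := Complex.two_pi_I_ne_zero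
    have h4 : ((⟨z, hz⟩ : ℍ) : ℂ) = z := rfl
    rw [h4] at h2
    have h5 : ModularForm.discriminant ⟨z, hz⟩ * deriv (jfun ∘ ofComplex) z =
        (2 * Real.pi * Complex.I) * (ModularForm.discriminant ⟨z, hz⟩ *
          ((2 * Real.pi * Complex.I)⁻¹ * deriv (jfun ∘ ofComplex) z)) := by
      field_simp
    rw [h5, h2]
    ring
  have h2 := analyticOrderAt_congr h1
  rw [analyticOrderAt_mul aΔ aj.deriv, order_disc, zero_add,
    analyticOrderAt_mul analyticAt_const ((a4.pow 2).mul a6), analyticOrderAt_mul (a4.pow 2) a6,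
    analyticOrderAt_pow a4] at h2
  rw [h2]
  have h3 : analyticOrderAt (fun _ : ℂ => 2 * Real.pi * Complex.I * c) (τ : ℂ) = 0 := by
    rw [analyticAt_const.analyticOrderAt_eq_zero]
    exact mul_ne_zero Complex.two_pi_I_ne_zero hc0
  rw [h3, zero_add, nsmul_eq_mul]
  rfl

theorem order_j_eq (τ : ℍ) : analyticOrderAt (jfun ∘ ofComplex) (τ : ℂ) =
    3 * analyticOrderAt (e4 ∘ ofComplex) (τ : ℂ) := by
  have aj := analyticAt_of_mdiff mdiff_jfun τ
  have a4 := analyticAt_of_mdiff e4_isL1.holo τ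
  have aΔ := analyticAt_disc τ
  have h1 : (jfun ∘ ofComplex) * (ModularForm.discriminant ∘ ofComplex) =
      (e4 ∘ ofComplex) ^ 3 := by
    funext z
    exact jfun_mul_disc (ofComplex z)
  have h2 : analyticOrderAt _ (τ : ℂ) = analyticOrderAt _ (τ : ℂ) :=
    congrArg (fun f => analyticOrderAt f (τ : ℂ)) h1
  rw [analyticOrderAt_mul aj aΔ, order_disc, add_zero, analyticOrderAt_pow a4, nsmul_eq_mul] at h2
  exact h2

theorem order_j_sub_eq (τ : ℍ) : analyticOrderAt (fun z => (jfun ∘ ofComplex) z - 1728) (τ : ℂ) =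
    2 * analyticOrderAt (e6 ∘ ofComplex) (τ : ℂ) := by
  have aj : AnalyticAt ℂ (fun z => (jfun ∘ ofComplex) z - 1728) (τ : ℂ) :=
    (analyticAt_of_mdiff mdiff_jfun τ).sub analyticAt_const
  have a6 := analyticAt_of_mdiff e6_isL1.holo τ
  have aΔ := analyticAt_disc τ
  have h1 : (fun z => (jfun ∘ ofComplex) z - 1728) * (ModularForm.discriminant ∘ ofComplex) =
      (e6 ∘ ofComplex) ^ 2 := by
    funext z
    exact jfun_sub_mul_disc (ofComplex z)
  have h2 : analyticOrderAt _ (τ : ℂ) = analyticOrderAt _ (τ : ℂ) :=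
    congrArg (fun f => analyticOrderAt f (τ : ℂ)) h1
  rw [analyticOrderAt_mul aj aΔ, order_disc, add_zero, analyticOrderAt_pow a6, nsmul_eq_mul] at h2
  exact h2

/-- The order of vanishing of `j - j(τ)` at `τ`. -/
def jram (a : ℂ) : ℕ := if a = 0 then 3 else if a = 1728 then 2 else 1

theorem order_jfun (τ : ℍ) : analyticOrderAt (fun z => (jfun ∘ ofComplex) z - jfun τ) (τ : ℂ) =
    jram (jfun τ) := by
  have aj := analyticAt_of_mdiff mdiff_jfun τ
  have a4 := analyticAt_of_mdiff e4_isL1.holo τ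
  have a6 := analyticAt_of_mdiff e6_isL1.holo τ
  have h0 := aj.analyticOrderAt_deriv_add_one
  rw [order_deriv_j] at h0
  have hτ : (jfun ∘ ofComplex) (τ : ℂ) = jfun τ := by simp
  rw [hτ] at h0
  have h4 := order_ne_top_of_mdiff e4_isL1.holo e4_ne_zero τ
  have h6 := order_ne_top_of_mdiff e6_isL1.holo e6_ne_zero τ
  obtain ⟨n4, hn4⟩ := ENat.ne_top_iff_exists.mp h4
  obtain ⟨n6, hn6⟩ := ENat.ne_top_iff_exists.mp h6
  have hd := ModularForm.discriminant_ne_zero τ
  have hj := jfun_mul_disc τ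
  have hj' := jfun_sub_mul_disc τ
  have z4 : jfun τ ≠ 0 → n4 = 0 := by
    intro h
    have : e4 τ ≠ 0 := by
      intro h'
      rw [h'] at hj
      simp [h, hd] at hj
    have h2 := a4.analyticOrderAt_eq_zero.mpr (by simpa using this)
    rw [← hn4] at h2
    exact_mod_cast h2
  have z6 : jfun τ ≠ 1728 → n6 = 0 := by
    intro h
    have : e6 τ ≠ 0 := by
      intro h'
      rw [h'] at hj'
      simp [sub_eq_zero, h, hd] at hj'
    have h2 := a6.analyticOrderAt_eq_zero.mpr (by simpa using this)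
    rw [← hn6] at h2
    exact_mod_cast h2
  unfold jram
  rw [← hn4, ← hn6] at h0
  split_ifs with ha ha'
  · have h1 := order_j_eq τ
    rw [← hn4] at h1
    have h2 : (fun z => (jfun ∘ ofComplex) z - jfun τ) = jfun ∘ ofComplex := by
      funext z
      rw [ha, sub_zero]
    rw [h2, h1] at h0
    have hz6 : n6 = 0 := z6 (by rw [ha]; norm_num)
    rw [hz6] at h0
    have h3 : 2 * n4 + 0 + 1 = 3 * n4 := by exact_mod_cast h0
    have h5 : n4 = 1 := by omega
    rw [h2, h1, h5]
    rfl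
  · have h1 := order_j_sub_eq τ
    rw [← hn6] at h1
    rw [ha', h1] at h0
    have hz4 : n4 = 0 := z4 ha
    rw [hz4] at h0
    have h3 : 2 * 0 + n6 + 1 = 2 * n6 := by exact_mod_cast h0
    have h5 : n6 = 1 := by omega
    rw [ha', h1, h5]
    rfl
  · rw [z4 ha, z6 ha'] at h0
    rw [← h0]
    rfl

end Fermat.Agent.GenusX0
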