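import Fermat.Agent.GenusX0.Unif
import Fermat.Agent.GenusX0.JOrder

/-!
# The uniformising datum at a point of the upper half plane
-/

set_option autoImplicit false

noncomputable section

open HahnSeries ModularCurve UpperHalfPlane Filter Topology Function.Periodic
open scoped MatrixGroups Manifold ComplexConjugate

namespace Fermat.Agent.GenusX0

open Fermat.Agent.ModFun Fermat.Agent.DimS2

/-- The Cayley transform -/
def cayF (a z : ℂ) : ℂ := (z - a) / (z - conj a)

theorem sub_conj_ne_zero {a z : ℂ} (ha : 0 < a.im) (hz : 0 < z.im) : z - conj a ≠ 0 := by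
  intro h
  have := congrArg Complex.im h
  simp only [Complex.sub_im, Complex.conj_im, Complex.zero_im] at this
  linarith

theorem norm_cayF_lt {a z : ℂ} (ha : 0 < a.im) (hz : 0 < z.im) : ‖cayF a z‖ < 1 := by
  have h0 := sub_conj_ne_zero ha hz
  rw [cayF, norm_div, div_lt_one (norm_pos_iff.mpr h0)]
  rw [← sq_lt_sq₀ (norm_nonneg _) (norm_nonneg _), ← Complex.normSq_eq_norm_sq,
    ← Complex.normSq_eq_norm_sq, Complex.normSq_apply, Complex.normSq_apply]
  simp only [Complex.sub_re, Complex.sub_im, Complex.conj_re, Complex.conj_im]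
  nlinarith [mul_pos ha hz]

theorem cayF_eq_zero {a z : ℂ} (ha : 0 < a.im) (hz : 0 < z.im) : cayF a z = 0 ↔ z = a := by
  rw [cayF, div_eq_zero_iff, or_iff_left (sub_conj_ne_zero ha hz), sub_eq_zero]

/-- inverse Cayley transform -/
def cayG (a w : ℂ) : ℂ := (a - conj a * w) / (1 - w)

theorem one_sub_ne_zero {w : ℂ} (hw : ‖w‖ < 1) : 1 - w ≠ 0 := by
  intro h
  have : w = 1 := by linear_combination -h
  rw [this] at hw
  simp at hw

theorem im_cayG_pos {a w : ℂ} (ha : 0 < a.im) (hw : ‖w‖ < 1) : 0 < (cayG a w).im := by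
  have h0 := one_sub_ne_zero hw
  have h1 : Complex.normSq w < 1 := by
    rw [Complex.normSq_eq_norm_sq]
    exact pow_lt_one₀ (norm_nonneg _) hw two_ne_zero
  rw [Complex.normSq_apply] at h1
  have h2 : 0 < Complex.normSq (1 - w) := Complex.normSq_pos.mpr h0
  rw [cayG, Complex.div_im]
  simp only [Complex.sub_re, Complex.sub_im, Complex.mul_re, Complex.mul_im, Complex.conj_re,
    Complex.conj_im, Complex.one_re, Complex.one_im]
  rw [← sub_div]
  apply div_pos _ h2
  nlinarith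

theorem cayF_cayG {a w : ℂ} (ha : 0 < a.im) (hw : ‖w‖ < 1) : cayF a (cayG a w) = w := by
  have h0 := one_sub_ne_zero hw
  have h1 : cayG a w - conj a ≠ 0 := sub_conj_ne_zero ha (im_cayG_pos ha hw)
  rw [cayF, div_eq_iff h1, cayG]
  field_simp
  ring

theorem cayG_cayF {a z : ℂ} (ha : 0 < a.im) (hz : 0 < z.im) : cayG a (cayF a z) = z := by
  have h0 := one_sub_ne_zero (norm_cayF_lt ha hz)
  have h1 := sub_conj_ne_zero ha hz
  rw [cayG, div_eq_iff h0, cayF]
  field_simp
  ring

theorem cayG_zero (a : ℂ) : cayG a 0 = a := by simp [cayG]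

/-- Cayley transform as a function on `ℍ` -/
def cay (τ₀ τ : ℍ) : ℂ := cayF τ₀ τ

theorem cay_smul {s : SL(2, ℤ)} {τ₀ : ℍ} (hs : s • τ₀ = τ₀) (τ : ℍ) :
    cay τ₀ (s • τ) = conj (denom (s : GL (Fin 2) ℝ) τ₀) / denom (s : GL (Fin 2) ℝ) τ₀ * cay τ₀ τ := by
  have hdet := Matrix.SpecialLinearGroup.det_coe s
  rw [Matrix.det_fin_two] at hdet
  have hdet' : (s 0 0 : ℂ) * s 1 1 - s 0 1 * s 1 0 = 1 := by exact_mod_cast hdet
  have hd0 : (s 1 0 : ℂ) * τ₀ + s 1 1 ≠ 0 := by
    have := denom_ne_zero (s : GL (Fin 2) ℝ) τ₀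
    rwa [ModularGroup.denom_apply] at this
  have hd1 : (s 1 0 : ℂ) * τ + s 1 1 ≠ 0 := by
    have := denom_ne_zero (s : GL (Fin 2) ℝ) τ
    rwa [ModularGroup.denom_apply] at this
  have hd2 : (s 1 0 : ℂ) * conj (τ₀ : ℂ) + s 1 1 ≠ 0 := by
    intro h
    apply hd0
    have := congrArg conj h
    simpa using this
  have h1 : (τ₀ : ℂ) = (s 0 0 * τ₀ + s 0 1) / (s 1 0 * τ₀ + s 1 1) := by
    conv_lhs => rw [← hs]
    rw [UpperHalfPlane.coe_specialLinearGroup_apply]
    simp
  have h1c : conj (τ₀ : ℂ) = (s 0 0 * conj (τ₀ : ℂ) + s 0 1) / (s 1 0 * conj (τ₀ : ℂ) + s 1 1) := by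
    have := congrArg conj h1
    simpa using this
  have h2 : ((s • τ : ℍ) : ℂ) = (s 0 0 * τ + s 0 1) / (s 1 0 * τ + s 1 1) := by
    rw [UpperHalfPlane.coe_specialLinearGroup_apply]
    simp
  have h3 : ((s • τ : ℍ) : ℂ) - τ₀ = (τ - τ₀) / ((s 1 0 * τ + s 1 1) * (s 1 0 * τ₀ + s 1 1)) := by
    rw [h2]
    conv_lhs => rw [h1]
    rw [div_sub_div _ _ hd1 hd0]
    congr 1
    linear_combination ((τ : ℂ) - τ₀) * hdet'
  have h4 : ((s • τ : ℍ) : ℂ) - conj (τ₀ : ℂ) =
      (τ - conj (τ₀ : ℂ)) / ((s 1 0 * τ + s 1 1) * (s 1 0 * conj (τ₀ : ℂ) + s 1 1)) := by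
    rw [h2]
    conv_lhs => rw [h1c]
    rw [div_sub_div _ _ hd1 hd2]
    congr 1
    linear_combination ((τ : ℂ) - conj (τ₀ : ℂ)) * hdet'
  have h5 := sub_conj_ne_zero τ₀.im_pos τ.im_pos
  rw [cay, cay, cayF, cayF, h3, h4, ModularGroup.denom_apply]
  simp only [map_add, map_mul, map_intCast]
  have h5' : (τ : ℂ) - conj (τ₀ : ℂ) ≠ 0 := h5
  generalize (s 1 0 : ℂ) * τ₀ + s 1 1 = B at *
  generalize (s 1 0 : ℂ) * τ + s 1 1 = A at *
  generalize (s 1 0 : ℂ) * conj (τ₀ : ℂ) + s 1 1 = C at *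
  field_simp

theorem denseCay (τ₀ : ℍ) (f : ℍ → ℂ) (hf : MDiff f) (h : ∀ τ, cay τ₀ τ ≠ 0 → f τ = 0) (τ : ℍ) :
    f τ = 0 := by
  have h1 : ∃ᶠ z in 𝓝[≠] τ₀, f z = 0 := by
    apply Eventually.frequently
    filter_upwards [self_mem_nhdsWithin] with z hz
    apply h
    intro h0
    apply hz
    have := (cayF_eq_zero τ₀.im_pos z.im_pos).mp h0
    exact UpperHalfPlane.ext this
  exact congrFun (UpperHalfPlane.eq_zero_of_frequently hf h1) τ

/-- Data for a point. -/
structure PtData where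
  pt : ℍ
  s : SL(2, ℤ)
  ζ : ℂˣ
  e : ℕ
  e_pos : 0 < e
  prim : IsPrimitiveRoot ζ e
  smul : ∀ τ, cay pt (s • τ) = ζ * cay pt τ

/-- the uniformising datum of a point -/
def PtData.toUD (P : PtData) : UD where
  u := cay P.pt
  s := P.s
  ζ := P.ζ
  e := P.e
  e_pos := P.e_pos
  prim := P.prim
  norm_lt τ := norm_cayF_lt P.pt.im_pos τ.im_pos
  smul := P.smul
  surj z hz := ⟨⟨cayG P.pt z, im_cayG_pos P.pt.im_pos hz.2⟩, cayF_cayG P.pt.im_pos hz.2⟩
  dense f hf h τ := denseCay P.pt f hf h τ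

theorem exists_hasExp_of_mdiff (P : PtData) {f : ℍ → ℂ} (hf : MDiff f) :
    ∃ G : PowerSeries ℂ, PConv G ∧ (∀ τ, pev G (cay P.pt τ) = f τ) ∧
      HasExp P.toUD f (HahnSeries.ofPowerSeries ℤ ℂ G) := by
  obtain ⟨G, hG, hG2⟩ := exists_pconv_of_differentiableOn
    (g := fun w => (f ∘ ofComplex) (cayG P.pt w)) (by
      rw [UpperHalfPlane.mdifferentiable_iff] at hf
      refine DifferentiableOn.comp (g := f ∘ ofComplex) (t := {z | 0 < z.im}) hf ?_ ?_
      · intro w hw
        have hw' : ‖w‖ < 1 := by simpa using hw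
        have h0 := one_sub_ne_zero hw'
        unfold cayG
        have h1 : DifferentiableAt ℂ (fun w : ℂ => ((P.pt : ℂ) - conj (P.pt : ℂ) * w) / (1 - w)) w := by
          refine DifferentiableAt.div (by fun_prop) (by fun_prop) h0
        exact h1.differentiableWithinAt
      · intro w hw
        exact im_cayG_pos P.pt.im_pos (by simpa using hw))
  have h2 : ∀ τ, pev G (cay P.pt τ) = f τ := by
    intro τ
    have := hG2 _ (norm_cayF_lt P.pt.im_pos τ.im_pos)
    simp only [Function.comp_apply] at this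
    rw [cayG_cayF P.pt.im_pos τ.im_pos, ofComplex_apply] at this
    exact this
  refine ⟨G, hG, h2, hG.mem_convLaurent, fun τ _ => ?_⟩
  rw [evf_ofPowerSeries]
  exact h2 τ

/-- order of the expansion = order of the function. -/
theorem HasExp.order_eq {P : PtData} {f : ℍ → ℂ} {F : LaurentSeries ℂ} (h : HasExp P.toUD f F)
    (hF0 : F ≠ 0) (hm : MeromorphicAt (f ∘ ofComplex) (P.pt : ℂ)) :
    meromorphicOrderAt (f ∘ ofComplex) (P.pt : ℂ) = F.order := by
  rw [meromorphicOrderAt_eq_int_iff hm]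
  set Q := F.powerSeriesPart with hQ
  have hQF : HahnSeries.single F.order 1 * HahnSeries.ofPowerSeries ℤ ℂ Q = F :=
    LaurentSeries.single_order_mul_powerSeriesPart F
  have hQc : HahnSeries.ofPowerSeries ℤ ℂ Q ∈ convLaurent := by
    rw [LaurentSeries.ofPowerSeries_powerSeriesPart]
    exact convLaurent.mul_mem (single_mem_convLaurent _ _) h.1
  have hQp : PConv Q := PConv.of_mem_convLaurent hQc
  have hQ0 : pev Q 0 ≠ 0 := by
    rw [pev_zero, ← PowerSeries.coeff_zero_eq_constantCoeff_apply,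
      LaurentSeries.powerSeriesPart_coeff]
    simpa using HahnSeries.coeff_order_eq_zero.not.mpr hF0
  have hc : AnalyticAt ℂ (fun z => cayF P.pt z) (P.pt : ℂ) := by
    unfold cayF
    exact (analyticAt_id.sub analyticAt_const).div (analyticAt_id.sub analyticAt_const)
      (sub_conj_ne_zero P.pt.im_pos P.pt.im_pos)
  have hc0 : cayF P.pt (P.pt : ℂ) = 0 := (cayF_eq_zero P.pt.im_pos P.pt.im_pos).mpr rfl
  have hQa : AnalyticAt ℂ (pev Q) (cayF P.pt (P.pt : ℂ)) := by
    rw [hc0]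
    exact (differentiableOn_pev hQp).analyticAt (Metric.isOpen_ball.mem_nhds (by simp))
  refine ⟨fun z => (z - conj (P.pt : ℂ)) ^ (-F.order) * pev Q (cayF P.pt z), ?_, ?_, ?_⟩
  · refine AnalyticAt.mul ?_ (hQa.comp hc)
    exact (analyticAt_id.sub analyticAt_const).zpow (sub_conj_ne_zero P.pt.im_pos P.pt.im_pos)
  · simp only
    rw [hc0]
    exact mul_ne_zero (zpow_ne_zero _ (sub_conj_ne_zero P.pt.im_pos P.pt.im_pos)) hQ0
  · have h1 : ∀ᶠ z : ℂ in 𝓝[≠] (P.pt : ℂ), 0 < z.im :=
      (eventually_upper P.pt).filter_mono nhdsWithin_le_nhds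
    filter_upwards [h1, self_mem_nhdsWithin] with z hz hz'
    simp only [Function.comp_apply, smul_eq_mul]
    rw [ofComplex_apply_of_im_pos hz]
    have h2 : cay P.pt ⟨z, hz⟩ ≠ 0 := by
      intro h0
      exact hz' ((cayF_eq_zero P.pt.im_pos hz).mp h0)
    have h3 := h.2 ⟨z, hz⟩ h2
    have hp : PDisc (cay P.pt ⟨z, hz⟩) := P.toUD.pdisc h2
    have h5 : evf F (cay P.pt ⟨z, hz⟩) = cayF P.pt z ^ F.order * pev Q (cayF P.pt z) := by
      conv_lhs => rw [← hQF]
      rw [evf_mul h2 (convAt_single _ _ _) (hQc _ hp), evf_single, evf_ofPowerSeries, one_mul]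
      rfl
    rw [← h3]
    change evf F (cay P.pt ⟨z, hz⟩) = _
    rw [h5, ← mul_assoc]
    congr 1
    rw [cayF, div_zpow, zpow_neg, div_eq_mul_inv]

theorem order_jfun_sub (P : PtData) {F : LaurentSeries ℂ} (h : HasExp P.toUD jfun F) :
    (F - HahnSeries.C (jfun P.pt)).order = (jram (jfun P.pt) : ℤ) := by
  have h1 : HasExp P.toUD (fun τ => jfun τ - jfun P.pt) (F - HahnSeries.C (jfun P.pt)) := by
    have := h.add (hasExp_const P.toUD (-jfun P.pt))
    simpa [sub_eq_add_neg, map_neg] using this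
  have h2 : ((fun τ => jfun τ - jfun P.pt) ∘ ofComplex) =
      (fun z => (jfun ∘ ofComplex) z - jfun P.pt) := rfl
  have ha : AnalyticAt ℂ ((fun τ => jfun τ - jfun P.pt) ∘ ofComplex) (P.pt : ℂ) :=
    (analyticAt_of_mdiff mdiff_jfun P.pt).sub analyticAt_const
  have ho := order_jfun P.pt
  rw [← h2] at ho
  have hne : F - HahnSeries.C (jfun P.pt) ≠ 0 := by
    intro h0
    rw [h0] at h1
    have h3 : analyticOrderAt ((fun τ => jfun τ - jfun P.pt) ∘ ofComplex) (P.pt : ℂ) = ⊤ := by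
      rw [analyticOrderAt_eq_top]
      filter_upwards [eventually_upper P.pt] with z hz
      simp only [Function.comp_apply]
      rw [ofComplex_apply_of_im_pos hz]
      by_cases h4 : cay P.pt ⟨z, hz⟩ = 0
      · have := (cayF_eq_zero P.pt.im_pos hz).mp h4
        have h5 : (⟨z, hz⟩ : ℍ) = P.pt := UpperHalfPlane.ext this
        rw [h5, sub_self]
      · have := h1.2 ⟨z, hz⟩ h4
        rw [evf_zero] at this
        exact this.symm
    rw [h3] at ho
    exact ENat.top_ne_natCast _ ho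
  have h3 := h1.order_eq hne ha.meromorphicAt
  rw [ha.meromorphicOrderAt_eq, ho, ENat.map_natCast] at h3
  have h4 : ((jram (jfun P.pt) : ℕ) : ℤ) = (F - HahnSeries.C (jfun P.pt)).order := by
    exact_mod_cast h3
  exact h4.symm

/-- Level `N` datum for a point. -/
def PtData.toUDN (P : PtData) (N : ℕ) : UDN N where
  toUD := P.toUD
  gen d _ _ g := by
    have h1 : MDiff (fun τ : ℍ => jfun (dm d τ)) := by
      have h := mdiff_fn (N := d) (RingHom.id ℂ) (x := qExpand ℂ d (jqModC ℂ))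
        (Algebra.subset_adjoin (mem_divisorExpansionsC ℂ d dvd_rfl))
      have h3 : (fun τ : ℍ => jfun (dm d τ)) = fn (RingHom.id ℂ) (qExpand ℂ d (jqModC ℂ)) := by
        funext τ
        rw [fn_gen]
      rwa [h3]
    have h2 : MDiff (fun τ : ℍ => jfun (dm d (g • τ))) := by
      intro τ
      exact (h1 (g • τ)).comp τ (mdifferentiable_smul (g := (g : GL (Fin 2) ℝ)) (by simp) τ)
    obtain ⟨G, _, _, h3⟩ := exists_hasExp_of_mdiff P h2
    exact ⟨_, h3⟩

/-! ### the three kinds of points -/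

/-- an arbitrary point, with trivial stabilizer element -/
def ptGen (τ₀ : ℍ) : PtData where
  pt := τ₀
  s := 1
  ζ := 1
  e := 1
  e_pos := one_pos
  prim := IsPrimitiveRoot.one
  smul τ := by simp

/-- the point `i` -/
def ptI : PtData where
  pt := UpperHalfPlane.I
  s := ModularGroup.S
  ζ := -1
  e := 2
  e_pos := two_pos
  prim := by
    have := IsPrimitiveRoot.neg_one (R := ℂ) 0 (by norm_num)
    rw [← IsPrimitiveRoot.coe_units_iff]
    simpa using this
  smul τ := by
    have hz : ModularGroup.S • UpperHalfPlane.I = UpperHalfPlane.I := by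
      rw [modular_S_smul]
      ext
      simp
    rw [cay_smul hz, ModularGroup.denom_S]
    simp

theorem rho_add_one_ne_zero : (rho : ℂ) + 1 ≠ 0 := by
  intro h0
  have : (rho : ℂ) * (rho + 1) + 1 = 0 := by linear_combination rho_eq
  rw [h0] at this; simp at this

theorem conj_rho : conj (rho : ℂ) = -1 - rho := by
  apply Complex.ext
  · have : (rho : ℂ).re = -1/2 := rfl
    simp only [Complex.conj_re, Complex.sub_re, Complex.neg_re, Complex.one_re, this]
    norm_num
  · simp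

/-- the point `ρ` -/
def ptRho : PtData where
  pt := rho
  s := ModularGroup.S * ModularGroup.T
  ζ := Units.mk0 ((rho : ℂ) ^ 2) (pow_ne_zero _ (by
    intro h0
    have := rho_eq
    rw [h0] at this
    simp at this))
  e := 3
  e_pos := by norm_num
  prim := by
    have hr := rho_eq
    have h3 : (rho : ℂ) ^ 3 = 1 := by linear_combination ((rho : ℂ) - 1) * hr
    have h : Fact (Nat.Prime 3) := ⟨Nat.prime_three⟩
    rw [← IsPrimitiveRoot.coe_units_iff, Units.val_mk0]
    have h4 : orderOf ((rho : ℂ) ^ 2) = 3 := by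
      apply orderOf_eq_prime
      · rw [← pow_mul, mul_comm, pow_mul, h3, one_pow]
      · intro h5
        have h6 : (rho : ℂ) = -2 := by linear_combination hr - h5
        rw [h6] at hr
        norm_num at hr
    rw [← h4]
    exact IsPrimitiveRoot.orderOf _
  smul τ := by
    have hr := rho_eq
    rw [cay_smul ST_rho, denom_ST, Units.val_mk0, map_add, map_one, conj_rho]
    congr 1
    rw [div_eq_iff rho_add_one_ne_zero]
    linear_combination -(rho : ℂ) * hr

end Fermat.Agent.GenusX0
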