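import Fermat.Agent.GenusX0.Embed
import Fermat.Agent.ModFun.Twist

/-!
# Places over a point and orbits of embeddings
-/

set_option autoImplicit false

noncomputable section

namespace Fermat.Agent.GenusX0

open AlgebraicCurve Fermat.Agent.Curves Fermat.Agent.ModFun IntermediateField

section Twist

variable {L : Type*} [Field L]

theorem order_twist (c : Lˣ) (G : LaurentSeries L) : (twist c G).order = G.order := by
  rcases eq_or_ne G 0 with rfl | hG
  · rw [map_zero]
  have hG' : twist c G ≠ 0 := (map_ne_zero (twist c)).mpr hG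
  apply le_antisymm
  · apply HahnSeries.order_le_of_coeff_ne_zero
    rw [twist_coeff]
    exact mul_ne_zero (Units.ne_zero _) (HahnSeries.coeff_order_eq_zero.not.mpr hG)
  · apply HahnSeries.order_le_of_coeff_ne_zero
    have h1 := HahnSeries.coeff_order_eq_zero.not.mpr hG'
    rw [twist_coeff] at h1
    exact right_ne_zero_of_mul h1

end Twist

section Count

variable {k F L : Type*} [Field k] [Field F] [Algebra k F] [Field L]
  [IsAlgClosed k] [IsFunctionField k F]

/-- the set of zeros of `z` -/
def zeros (k : Type*) {F : Type*} [Field k] [Field F] [Algebra k F] [IsAlgClosed k]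
    [IsFunctionField k F] (z : F) : Finset (Place k F) := (finite_zeros (k := k) z).toFinset

theorem mem_zeros {z : F} {v : Place k F} : v ∈ zeros k z ↔ 0 < v.ord z := by
  simp [zeros]

theorem sum_zeros {z : F} (hz : Transcendental k z) :
    ∑ v ∈ zeros k z, v.ord z = Module.finrank k⟮z⟯ F := by
  classical
  have hz' : Transcendental k z⁻¹ := by
    intro h
    apply hz
    have := h.inv
    rwa [inv_inv] at this
  have h1 := degree_poleDivisor (k := k) hz'
  rw [finrank_adjoin_inv] at h1
  rw [← h1, degree_eq_sum, Finsupp.sum]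
  symm
  apply Finset.sum_subset_zero_on_sdiff
  · intro v hv
    rw [Finsupp.mem_support_iff, poleDivisor_apply, v.ord_inv] at hv
    rw [mem_zeros]
    by_contra h
    apply hv
    rw [max_eq_left]
    omega
  · intro v hv
    rw [Finset.mem_sdiff, mem_zeros, Finsupp.notMem_support_iff, poleDivisor_apply, v.ord_inv] at hv
    have := hv.2
    rw [neg_neg] at this
    have h2 : max 0 (v.ord z) = v.ord z := max_eq_right hv.1.le
    omega
  · intro v hv
    rw [Finsupp.mem_support_iff, poleDivisor_apply, v.ord_inv, neg_neg] at hv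
    rw [poleDivisor_apply, v.ord_inv, neg_neg]
    rcases le_or_gt (v.ord z) 0 with h | h
    · rw [max_eq_left h] at hv
      exact absurd rfl hv
    · exact max_eq_right h.le

omit [IsAlgClosed k] [IsFunctionField k F] in
theorem exists_centre {X : Type*} (σ : X → F →+* LaurentSeries L) (ι : k →+* L)
    (hσ : ∀ x c, σ x (algebraMap k F c) = HahnSeries.C (ι c)) (ξ : LaurentSeries L) {z : F}
    (hξ : ∀ x, σ x z = ξ) (hξ0 : ξ.order ≠ 0) :
    ∃ p : X → Place k F, ∀ x, Centred (σ x) (p x) := by
  have : ∀ x, ∃ v : Place k F, Centred (σ x) v := by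
    intro x
    obtain ⟨v, ε, h⟩ := exists_place_of_emb (σ x) (hσ x) (z := z) (by rw [hξ]; exact hξ0)
    exact ⟨v, ε, h⟩
  choose p hp using this
  exact ⟨p, hp⟩

omit [IsAlgClosed k] [IsFunctionField k F] in
theorem Centred.ord_pos {σ : F →+* LaurentSeries L} {v : Place k F} (h : Centred σ v) {z : F}
    (hz : 0 < (σ z).order) : 0 < v.ord z := by
  obtain ⟨ε, hε, h1⟩ := h
  have hz0 : z ≠ 0 := by
    rintro rfl
    rw [map_zero, HahnSeries.order_zero] at hz
    exact lt_irrefl _ hz
  rw [h1 z hz0] at hz
  exact pos_of_mul_pos_right hz (by omega)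

/-- The fibres of the centre map have exactly `ord_v z` elements. -/
theorem card_fibre [DecidableEq (Place k F)] {X : Type*} [Fintype X]
    (σ : X → F →+* LaurentSeries L) (hinj : Function.Injective σ) (ι : k →+* L)
    (hσ : ∀ x c, σ x (algebraMap k F c) = HahnSeries.C (ι c)) (ξ : LaurentSeries L) {z : F}
    (hz : Transcendental k z) (hX : Fintype.card X = Module.finrank k⟮z⟯ F)
    (hξ : ∀ x, σ x z = ξ) (hξ0 : 0 < ξ.order) (p : X → Place k F)
    (hp : ∀ x, Centred (σ x) (p x)) (v : Place k F) (hv : 0 < v.ord z) :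
    ((Finset.univ.filter fun x => p x = v).card : ℤ) = v.ord z := by
  classical
  have hz0 : z ≠ 0 := fun h0 => hz (h0 ▸ isAlgebraic_zero)
  have hmem : ∀ x ∈ (Finset.univ : Finset X), p x ∈ zeros k z := by
    intro x _
    rw [mem_zeros]
    exact (hp x).ord_pos (by rw [hξ]; exact hξ0)
  have h1 := Finset.card_eq_sum_card_fiberwise hmem
  have hle : ∀ w ∈ zeros k z, ((Finset.univ.filter fun x => p x = w).card : ℤ) ≤ w.ord z := by
    intro w hw
    rw [mem_zeros] at hw
    obtain ⟨m, hm⟩ := Int.eq_ofNat_of_zero_le hw.le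
    have h2 := card_le_ord w hz0 (m := m) (by omega) hm
      (X := {x // x ∈ Finset.univ.filter fun x => p x = w}) (fun x => σ x.1)
      (fun x y hxy => Subtype.ext (hinj hxy)) ι (fun x c => hσ x.1 c) ξ (fun x => hξ x.1)
      (fun x => by
        have h3 := (Finset.mem_filter.mp x.2).2
        exact Eq.subst (motive := fun w' => Centred (σ x.1) w') h3 (hp x.1))
    rw [Fintype.card_coe] at h2
    omega
  have h2 : ∑ w ∈ zeros k z, ((Finset.univ.filter fun x => p x = w).card : ℤ)
      = ∑ w ∈ zeros k z, w.ord z := by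
    rw [sum_zeros hz, ← hX, ← Finset.card_univ, h1]
    push_cast
    rfl
  exact (Finset.sum_eq_sum_iff_of_le hle).mp h2 v (mem_zeros.mpr hv)

/-- Orbit description. -/
theorem centre_eq_iff [DecidableEq (Place k F)] {X : Type*} [Fintype X]
    (σ : X → F →+* LaurentSeries L) (hinj : Function.Injective σ) (ι : k →+* L)
    (hσ : ∀ x c, σ x (algebraMap k F c) = HahnSeries.C (ι c)) (ξ : LaurentSeries L) {z : F}
    (hz : Transcendental k z) (hX : Fintype.card X = Module.finrank k⟮z⟯ F)
    (hξ : ∀ x, σ x z = ξ) {e : ℕ} (he : 0 < e) (hξe : ξ.order = e) (p : X → Place k F)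
    (hp : ∀ x, Centred (σ x) (p x)) {G : Type*} [Group G] [MulAction G X] (s : G) (ζ : Lˣ)
    (hζ : IsPrimitiveRoot ζ e) (hs : ∀ x, σ (s⁻¹ • x) = (twist ζ).comp (σ x)) (x y : X) :
    p x = p y ↔ ∃ i : ℕ, y = (s⁻¹) ^ i • x := by
  classical
  have hstep : ∀ x, p (s⁻¹ • x) = p x := by
    intro x
    obtain ⟨ε, hε, h1⟩ := hp x
    refine (hp (s⁻¹ • x)).unique ⟨ε, hε, fun f hf => ?_⟩
    rw [hs, RingHom.comp_apply, order_twist, h1 f hf]
  have hpow : ∀ (i : ℕ) (x), p ((s⁻¹) ^ i • x) = p x := by
    intro i
    induction i with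
    | zero => intro x; rw [pow_zero, one_smul]
    | succ i ih => intro x; rw [pow_succ', mul_smul, hstep, ih]
  have hspow : ∀ (i : ℕ) (x) (f : F), σ ((s⁻¹) ^ i • x) f = twist (ζ ^ i) (σ x f) := by
    intro i
    induction i with
    | zero => intro x f; rw [pow_zero, one_smul, pow_zero, twist_one]
    | succ i ih =>
      intro x f
      rw [pow_succ', mul_smul, hs, RingHom.comp_apply, ih, twist_twist, ← pow_succ']
  constructor
  · intro hxy
    set v := p x with hv
    -- the orbit
    have hper : ∀ i : ℕ, (s⁻¹) ^ i • x = x → v.ord z ∣ i := by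
      intro i hi
      obtain ⟨ε, hε, h1⟩ := hp x
      obtain ⟨f, hf0, hf⟩ := exists_ord_eq v 1
      have h2 : twist (ζ ^ i) (σ x f) = σ x f := by
        rw [← hspow, hi]
      have hne : σ x f ≠ 0 := (map_ne_zero _).mpr hf0
      have h3 := congrArg (fun G => HahnSeries.coeff G (σ x f).order) h2
      simp only [twist_coeff] at h3
      have h4 := mul_right_cancel₀ (HahnSeries.coeff_order_eq_zero.not.mpr hne)
        (h3.trans (one_mul _).symm)
      rw [h1 f hf0, ← hv, hf, mul_one] at h4
      have h5 : ζ ^ (i * ε) = 1 := by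
        ext
        rw [Units.val_one, ← h4]
        norm_cast
        rw [← pow_mul]
      have h6 : e ∣ i * ε := (hζ.pow_eq_one_iff_dvd _).mp h5
      have hz0 : z ≠ 0 := fun h0 => hz (h0 ▸ isAlgebraic_zero)
      have h7 : (e : ℤ) = ε * v.ord z := by
        rw [← hξe, ← hξ x]
        exact h1 z hz0
      have h8 : ((ε : ℤ) * v.ord z) ∣ ε * i := by
        rw [← h7]
        have : ((e : ℕ) : ℤ) ∣ ((i * ε : ℕ) : ℤ) := Int.natCast_dvd_natCast.mpr h6
        push_cast at this
        rwa [mul_comm (ε : ℤ)]
      exact Int.dvd_of_mul_dvd_mul_left (by omega) h8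
    obtain ⟨m, hm⟩ := Int.eq_ofNat_of_zero_le
      ((hp x).ord_pos (z := z) (by rw [hξ, hξe]; omega)).le
    have hmpos : 0 < m := by
      have := (hp x).ord_pos (z := z) (by rw [hξ, hξe]; omega)
      omega
    rw [← hv] at hm
    have hinj' : Set.InjOn (fun i : ℕ => (s⁻¹) ^ i • x) (Finset.range m : Set ℕ) := by
      intro i hi j hj hij
      rw [Finset.mem_coe, Finset.mem_range] at hi hj
      have key : ∀ i j : ℕ, i ≤ j → j < m → (s⁻¹) ^ i • x = (s⁻¹) ^ j • x → i = j := by
        intro i j hle hj hij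
        have h1 : (s⁻¹) ^ (j - i) • x = x := by
          have h2 : (s⁻¹) ^ j = (s⁻¹) ^ i * (s⁻¹) ^ (j - i) := by
            rw [← pow_add]; congr 1; omega
          rw [h2, mul_smul] at hij
          exact ((smul_left_cancel_iff _).mp hij).symm
        have h3 := hper _ h1
        rw [hm] at h3
        have h4 : m ∣ j - i := by exact_mod_cast h3
        have h5 := Nat.eq_zero_of_dvd_of_lt h4 (by omega)
        omega
      rcases le_total i j with h | h
      · exact key i j h hj hij
      · exact (key j i h hi hij.symm).symm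
    have hsub : (Finset.range m).image (fun i : ℕ => (s⁻¹) ^ i • x) ⊆
        Finset.univ.filter fun y => p y = v := by
      intro y hy
      rw [Finset.mem_image] at hy
      obtain ⟨i, _, rfl⟩ := hy
      rw [Finset.mem_filter]
      exact ⟨Finset.mem_univ _, hpow i x⟩
    have hcard := card_fibre σ hinj ι hσ ξ hz hX hξ (by rw [hξe]; omega) p hp v (by omega)
    rw [hm] at hcard
    have heq := Finset.eq_of_subset_of_card_le hsub (by
      rw [Finset.card_image_of_injOn hinj', Finset.card_range]
      exact_mod_cast hcard.le)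
    have hy : y ∈ Finset.univ.filter fun y => p y = v := by
      rw [Finset.mem_filter]
      exact ⟨Finset.mem_univ _, hxy.symm⟩
    rw [← heq, Finset.mem_image] at hy
    obtain ⟨i, _, hi⟩ := hy
    exact ⟨i, hi.symm⟩
  · rintro ⟨i, rfl⟩
    rw [hpow]

end Count

end Fermat.Agent.GenusX0
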