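import Fermat.Agent.GenusX0.Unif

/-!
# The uniformising datum at infinity
-/

set_option autoImplicit false

noncomputable section

open HahnSeries ModularCurve UpperHalfPlane Filter Topology Function.Periodic
open scoped MatrixGroups Manifold

namespace Fermat.Agent.GenusX0

open Fermat.Agent.ModFun

theorem exists_decomp (d : ℕ) [NeZero d] (γ : SL(2, ℤ)) :
    ∃ (g e : ℕ) (b : ℤ) (γ' : SL(2, ℤ)), g * e = d ∧ g = Int.gcd d (γ 1 0) ∧
      γ' 0 0 * g = d * γ 0 0 ∧ γ' 0 0 * b + γ' 0 1 * e = d * γ 0 1 ∧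
      γ' 1 0 * g = γ 1 0 ∧ γ' 1 0 * b + γ' 1 1 * e = γ 1 1 := by
  have hd : (d : ℤ) ≠ 0 := by exact_mod_cast NeZero.ne d
  have hdet := Matrix.SpecialLinearGroup.det_coe γ
  rw [Matrix.det_fin_two] at hdet
  set p := γ 0 0 with hp
  set q := γ 0 1 with hq
  set r := γ 1 0 with hr
  set s := γ 1 1 with hs
  set g := Int.gcd d r with hg
  have hg0 : (g : ℤ) ≠ 0 := by
    have : g ≠ 0 := by
      rw [hg]
      exact Int.gcd_ne_zero_left hd
    exact_mod_cast this
  obtain ⟨d', hd'⟩ : (g : ℤ) ∣ d := Int.gcd_dvd_left _ _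
  obtain ⟨r', hr'⟩ : (g : ℤ) ∣ r := Int.gcd_dvd_right _ _
  have hcop : IsCoprime d' r' := by
    have h1 := Int.gcd_eq_gcd_ab (d : ℤ) r
    rw [← hg] at h1
    refine ⟨Int.gcdA d r, Int.gcdB d r, ?_⟩
    apply mul_left_cancel₀ hg0
    rw [mul_one]
    conv_rhs => rw [h1]
    conv_rhs => rw [hd', hr']
    conv_lhs => rw [hd', hr']
    ring
  have hpr : IsCoprime p r := ⟨s, -q, by linear_combination hdet⟩
  have hpr' : IsCoprime p r' := by
    rw [hr'] at hpr
    exact hpr.of_mul_right_right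
  have hc2 : IsCoprime (d' * p) r' := hcop.mul_left hpr'
  obtain ⟨β, α', hαβ⟩ := hc2
  -- β d' p + α' r' = 1 ; take α = -α'
  let γ' : SL(2, ℤ) := ⟨!![d' * p, -α'; r', β], by
    rw [Matrix.det_fin_two_of]
    linear_combination hαβ⟩
  have hd'pos : 0 < d' := by
    have h1 : (0 : ℤ) < g * d' := by
      rw [← hd']
      exact_mod_cast Nat.pos_of_ne_zero (NeZero.ne d)
    exact pos_of_mul_pos_right h1 (by positivity)
  refine ⟨g, d'.toNat, β * d * q + α' * s, γ', ?_, rfl, ?_, ?_, ?_, ?_⟩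
  · have : ((g * d'.toNat : ℕ) : ℤ) = d := by
      push_cast
      rw [Int.toNat_of_nonneg hd'pos.le, hd']
    exact_mod_cast this
  · change d' * p * g = d * p
    rw [hd']; ring
  · change d' * p * (β * d * q + α' * s) + -α' * (d'.toNat : ℤ) = d * q
    rw [Int.toNat_of_nonneg hd'pos.le]
    have h2 : d' * p * (β * d * q + α' * s) + -α' * d' - d * q =
        d * q * (β * (d' * p) + α' * r' - 1) - d * q * α' * r' + d' * p * α' * s - α' * d' := by
      ring
    have h3 : d * q * α' * r' = d' * q * α' * r := by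
      rw [hd', hr']; ring
    rw [← sub_eq_zero, h2, hαβ, h3]
    linear_combination (d' * α') * hdet
  · change r' * g = r
    rw [hr']; ring
  · change r' * (β * d * q + α' * s) + β * (d'.toNat : ℤ) = s
    rw [Int.toNat_of_nonneg hd'pos.le]
    have h3 : r' * (β * d * q) = β * d' * q * r := by
      rw [hd', hr']; ring
    rw [mul_add, h3]
    linear_combination s * hαβ - (β * d') * hdet

/-- `τ ↦ (gτ+b)/e`. -/
def pte (g e : ℕ) (b : ℤ) (hg : 0 < g) (he : 0 < e) (τ : ℍ) : ℍ :=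
  ⟨((g : ℂ) * τ + b) / e, by
    have hg' : (0 : ℝ) < g := by exact_mod_cast hg
    have he' : (0 : ℝ) < e := by exact_mod_cast he
    rw [show (e : ℂ) = ((e : ℝ) : ℂ) by push_cast; rfl, Complex.div_ofReal_im]
    have h1 : ((g : ℂ) * τ + b).im = g * τ.im := by
      simp
    rw [h1]
    exact div_pos (mul_pos hg' τ.im_pos) he'⟩

theorem coe_pte (g e : ℕ) (b : ℤ) (hg : 0 < g) (he : 0 < e) (τ : ℍ) :
    (pte g e b hg he τ : ℂ) = ((g : ℂ) * τ + b) / e := rfl

theorem jfun_dm_smul (d : ℕ) [NeZero d] (γ : SL(2, ℤ)) :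
    ∃ (g e : ℕ) (b : ℤ) (hg : 0 < g) (he : 0 < e), g * e = d ∧ g = Int.gcd d (γ 1 0) ∧
      ∀ τ, jfun (dm d (γ • τ)) = jfun (pte g e b hg he τ) := by
  obtain ⟨g, e, b, γ', hge, hg, h1, h2, h3, h4⟩ := exists_decomp d γ
  have hd0 : d ≠ 0 := NeZero.ne d
  have hg0 : 0 < g := Nat.pos_of_ne_zero (by rintro rfl; simp at hge; exact hd0 hge.symm)
  have he0 : 0 < e := Nat.pos_of_ne_zero (by rintro rfl; simp at hge; exact hd0 hge.symm)
  refine ⟨g, e, b, hg0, he0, hge, hg, fun τ => ?_⟩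
  rw [← jfun_smul γ' (pte g e b hg0 he0 τ)]
  congr 1
  ext
  rw [coe_dm, UpperHalfPlane.coe_specialLinearGroup_apply,
    UpperHalfPlane.coe_specialLinearGroup_apply, coe_pte]
  have he' : (e : ℂ) ≠ 0 := by exact_mod_cast he0.ne'
  have c1 : (γ' 0 0 : ℂ) * g = d * γ 0 0 := by exact_mod_cast h1
  have c2 : (γ' 0 0 : ℂ) * b + γ' 0 1 * e = d * γ 0 1 := by exact_mod_cast h2
  have c3 : (γ' 1 0 : ℂ) * g = γ 1 0 := by exact_mod_cast h3
  have c4 : (γ' 1 0 : ℂ) * b + γ' 1 1 * e = γ 1 1 := by exact_mod_cast h4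
  have n1 : (γ' 0 0 : ℂ) * (((g : ℂ) * τ + b) / e) + γ' 0 1 =
      (d * (γ 0 0 * τ + γ 0 1)) / e := by
    field_simp
    linear_combination (τ : ℂ) * c1 + c2
  have n2 : (γ' 1 0 : ℂ) * (((g : ℂ) * τ + b) / e) + γ' 1 1 =
      (γ 1 0 * τ + γ 1 1) / e := by
    field_simp
    linear_combination (τ : ℂ) * c3 + c4
  simp only [eq_intCast]
  push_cast
  rw [n1, n2, div_div_div_cancel_right₀ he', mul_div_assoc]

theorem jfun_of_translate {τ τ' : ℍ} (b : ℤ) (h : (τ' : ℂ) = τ + b) : jfun τ' = jfun τ := by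
  have h1 : τ' = ModularGroup.T ^ b • τ := by
    ext
    rw [modular_T_zpow_smul, UpperHalfPlane.coe_vadd, h]
    push_cast
    ring
  rw [h1, jfun_smul]

/-- invariance of the generators -/
theorem jfun_dm_Gamma0 {N : ℕ} (d : ℕ) [NeZero d] (hd : d ∣ N) {γ : SL(2, ℤ)}
    (hγ : γ ∈ CongruenceSubgroup.Gamma0 N) (τ : ℍ) : jfun (dm d (γ • τ)) = jfun (dm d τ) := by
  obtain ⟨g, e, b, hg, he, hge, hgc, h⟩ := jfun_dm_smul d γ
  have h1 : (N : ℤ) ∣ γ 1 0 := by
    rw [CongruenceSubgroup.Gamma0_mem] at hγ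
    rwa [ZMod.intCast_zmod_eq_zero_iff_dvd] at hγ
  have h2 : (d : ℤ) ∣ γ 1 0 := (Int.natCast_dvd_natCast.mpr hd).trans h1
  have h3 : g = d := by
    rw [hgc]
    apply Nat.dvd_antisymm
    · exact_mod_cast Int.gcd_dvd_left (d : ℤ) (γ 1 0)
    · exact_mod_cast Int.dvd_coe_gcd (dvd_refl (d : ℤ)) h2
  have h4 : e = 1 := by
    rw [h3] at hge
    have : 0 < d := Nat.pos_of_ne_zero (NeZero.ne d)
    exact Nat.eq_of_mul_eq_mul_left this (by rw [hge, mul_one])
  rw [h]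
  apply jfun_of_translate b
  rw [coe_pte, coe_dm, h3, h4, Nat.cast_one, div_one]

/-! ### the datum -/

section

variable (N : ℕ) [NeZero N]

theorem N_pos : (0 : ℝ) < N := by exact_mod_cast Nat.pos_of_ne_zero (NeZero.ne N)

/-- `e^{2πi/N}` as a unit -/
def zetaU : ℂˣ := Units.mk0 (Complex.exp (2 * Real.pi * Complex.I / N)) (Complex.exp_ne_zero _)

theorem zetaU_prim : IsPrimitiveRoot (zetaU N) N := by
  rw [← IsPrimitiveRoot.coe_units_iff]
  exact Complex.isPrimitiveRoot_exp N (NeZero.ne N)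

/-- The uniformising datum at the cusps: `u = q^{1/N}`. -/
def cuspUD : UD where
  u τ := qParam N (τ : ℂ)
  s := ModularGroup.T
  ζ := zetaU N
  e := N
  e_pos := Nat.pos_of_ne_zero (NeZero.ne N)
  prim := zetaU_prim N
  norm_lt τ := norm_qParam_lt_one (N_pos N) τ.im_pos
  smul τ := by
    rw [modular_T_smul, UpperHalfPlane.coe_vadd, zetaU, Units.val_mk0, qParam, qParam,
      ← Complex.exp_add]
    congr 1
    have : (N : ℂ) ≠ 0 := by exact_mod_cast NeZero.ne N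
    push_cast
    field_simp
  surj z hz := ⟨⟨_, im_invQParam_pos_of_norm_lt_one (N_pos N) hz.2 hz.ne_zero⟩,
    qParam_right_inv (N_pos N).ne' hz.ne_zero⟩
  dense f _ h τ := h τ (qParam_ne_zero _)

/-- the expansion of `j((gτ+b)/e)` -/
theorem hasExp_pte {g e : ℕ} (b : ℤ) (hg : 0 < g) (he : 0 < e) (heN : e ∣ N) :
    ∃ (c : ℂˣ) (m : ℕ) (_ : NeZero m), m = g * (N / e) ∧
      HasExp (cuspUD N) (fun τ => jfun (pte g e b hg he τ)) (qExpand ℂ m (twist c (jqModC ℂ))) := by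
  have hm0 : g * (N / e) ≠ 0 :=
    Nat.mul_ne_zero hg.ne' (Nat.div_pos (Nat.le_of_dvd (Nat.pos_of_ne_zero (NeZero.ne N)) heN) he).ne'
  refine ⟨Units.mk0 (Complex.exp (2 * Real.pi * Complex.I * b / e)) (Complex.exp_ne_zero _),
    g * (N / e), ⟨hm0⟩, rfl, ?_⟩
  have : NeZero (g * (N / e)) := ⟨hm0⟩
  have hc : ‖Complex.exp (2 * Real.pi * Complex.I * b / e)‖ = 1 := by
    have : (2 * Real.pi * Complex.I * b / e : ℂ) = ((2 * Real.pi * b / e : ℝ) : ℂ) * Complex.I := by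
      push_cast
      ring
    rw [this, Complex.norm_exp_ofReal_mul_I]
  refine ⟨qExpand_mem_convLaurent _ (twist_mem_convLaurent _ hc jqModC_mem_convLaurent),
    fun τ _ => ?_⟩
  rw [evf_qExpand, evf_twist, Units.val_mk0]
  have h1 : Complex.exp (2 * Real.pi * Complex.I * b / e) * (cuspUD N).u τ ^ (g * (N / e)) =
      qParam 1 (pte g e b hg he τ : ℂ) := by
    change _ * qParam N (τ : ℂ) ^ (g * (N / e)) = _
    rw [qParam, qParam, ← Complex.exp_nat_mul, ← Complex.exp_add, coe_pte]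
    congr 1
    have h2 : (N : ℂ) = e * (N / e : ℕ) := by
      exact_mod_cast (Nat.mul_div_cancel' heN).symm
    have he' : (e : ℂ) ≠ 0 := by exact_mod_cast he.ne'
    have hNe : ((N / e : ℕ) : ℂ) ≠ 0 := by
      exact_mod_cast (Nat.div_pos (Nat.le_of_dvd (Nat.pos_of_ne_zero (NeZero.ne N)) heN) he).ne'
    rw [Complex.ofReal_natCast, h2]
    push_cast
    field_simp
    ring
  rw [h1, evf_jqModC]

/-- The level `N` datum at the cusps. -/
def cuspUDN : UDN N where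
  toUD := cuspUD N
  gen d _ hd γ := by
    obtain ⟨g, e, b, hg, he, hge, hgc, h⟩ := jfun_dm_smul d γ
    obtain ⟨c, m, _, hm, h2⟩ := hasExp_pte N b hg he ((Dvd.intro_left g hge).trans hd)
    simp_rw [h]
    exact ⟨_, h2⟩

theorem order_qExpand' {m : ℕ} [NeZero m] (c : ℂˣ) :
    (qExpand ℂ m (twist c (jqModC ℂ))).order = -m := by
  have h1 : (twist c (jqModC ℂ)).order = -1 := by
    rw [order_twist]
    apply le_antisymm
    · apply HahnSeries.order_le_of_coeff_ne_zero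
      rw [coeff_jqModC_neg_one]
      exact one_ne_zero
    · by_contra hlt
      push Not at hlt
      have h2 := coeff_jqModC_of_lt ℂ hlt
      exact jqModC_ne_zero_of_nontrivial (R := ℂ) (HahnSeries.coeff_order_eq_zero.mp h2)
  rw [order_qExpand, h1]
  ring

theorem mem_Gamma0_of_jfun {γ : SL(2, ℤ)} (h : ∀ τ, jfun (dm N (γ • τ)) = jfun (dm N τ)) :
    γ ∈ CongruenceSubgroup.Gamma0 N := by
  obtain ⟨g, e, b, hg, he, hge, hgc, h1⟩ := jfun_dm_smul N γ
  obtain ⟨c, m, _, hm, h2⟩ := hasExp_pte N b hg he (Dvd.intro_left g hge)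
  obtain ⟨g', e', b', hg', he', hge', hgc', h1'⟩ := jfun_dm_smul N 1
  obtain ⟨c', m', _, hm', h2'⟩ := hasExp_pte N b' hg' he' (Dvd.intro_left g' hge')
  have h3 : (fun τ => jfun (pte g e b hg he τ)) = fun τ => jfun (pte g' e' b' hg' he' τ) := by
    funext τ
    rw [← h1, h, ← h1', one_smul]
  rw [h3] at h2
  have h4 := congrArg HahnSeries.order (h2.unique h2')
  rw [order_qExpand', order_qExpand'] at h4
  have h5 : m = m' := by exact_mod_cast neg_injective h4
  have hg'N : g' = N := by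
    rw [hgc']
    simp
  have he'1 : e' = 1 := by
    rw [hg'N] at hge'
    exact Nat.eq_of_mul_eq_mul_left (Nat.pos_of_ne_zero (NeZero.ne N)) (by rw [hge', mul_one])
  have h6 : N / e = g := Nat.div_eq_of_eq_mul_left he hge.symm
  rw [hm, hm', he'1, hg'N, h6, Nat.div_one] at h5
  have h7 : g = N := Nat.mul_self_inj.mp h5
  rw [CongruenceSubgroup.Gamma0_mem, ZMod.intCast_zmod_eq_zero_iff_dvd]
  have h8 : (Int.gcd N (γ 1 0) : ℤ) ∣ γ 1 0 := Int.gcd_dvd_right _ _
  rwa [← hgc, h7] at h8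

end

end Fermat.Agent.GenusX0
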