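import Fermat.Agent.Curves.Fundamental

/-!
# Embeddings of a function field into Laurent series fields and places
-/

set_option autoImplicit false

noncomputable section

namespace Fermat.Agent.GenusX0

open AlgebraicCurve Fermat.Agent.Curves

section Place

variable {k F L : Type*} [Field k] [Field F] [Algebra k F] [Field L]

/-- The place attached to an embedding into a Laurent series field. -/
theorem exists_place_of_emb {ι : k →+* L} (σ : F →+* LaurentSeries L)
    (hσ : ∀ c, σ (algebraMap k F c) = HahnSeries.C (ι c)) {z : F} (hz : (σ z).order ≠ 0) :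
    ∃ (v : Place k F) (ε : ℕ), 0 < ε ∧ ∀ f, f ≠ 0 → (σ f).order = ε * v.ord f := by
  classical
  have hne : ∀ f : F, f ≠ 0 → σ f ≠ 0 := fun f hf => (map_ne_zero σ).mpr hf
  have hmul : ∀ x y : F, x ≠ 0 → y ≠ 0 → (σ (x * y)).order = (σ x).order + (σ y).order := by
    intro x y hx hy
    rw [map_mul, HahnSeries.order_mul (hne x hx) (hne y hy)]
  have hone : (σ 1).order = 0 := by rw [map_one, HahnSeries.order_one]
  have hinv : ∀ x : F, x ≠ 0 → (σ x⁻¹).order = -(σ x).order := by
    intro x hx
    have := hmul x x⁻¹ hx (inv_ne_zero hx)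
    rw [mul_inv_cancel₀ hx, hone] at this
    omega
  have hz0 : z ≠ 0 := by
    rintro rfl
    rw [map_zero, HahnSeries.order_zero] at hz
    exact hz rfl
  -- minimal positive value
  have hex : ∃ n : ℕ, 0 < n ∧ ∃ x : F, x ≠ 0 ∧ (σ x).order = n := by
    rcases lt_or_gt_of_ne hz with h | h
    · refine ⟨(-(σ z).order).toNat, by omega, z⁻¹, inv_ne_zero hz0, ?_⟩
      rw [hinv z hz0]
      omega
    · exact ⟨((σ z).order).toNat, by omega, z, hz0, by omega⟩
  obtain ⟨hpos, t, ht0, ht⟩ := Nat.find_spec hex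
  set ε := Nat.find hex with hε
  have hmin : ∀ x : F, x ≠ 0 → 0 < (σ x).order → (ε : ℤ) ≤ (σ x).order := by
    intro x hx0 hx
    have := Nat.find_min' hex (m := ((σ x).order).toNat) ⟨by omega, x, hx0, by omega⟩
    omega
  have hpow : ∀ x : F, x ≠ 0 → ∀ n : ℕ, (σ (x ^ n)).order = n * (σ x).order := by
    intro x hx n
    rw [map_pow, HahnSeries.order_pow, nsmul_eq_mul]
  have hzpow : ∀ x : F, x ≠ 0 → ∀ n : ℤ, (σ (x ^ n)).order = n * (σ x).order := by
    intro x hx n
    obtain ⟨m, rfl | rfl⟩ := n.eq_nat_or_neg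
    · rw [zpow_natCast, hpow x hx]
    · rw [zpow_neg, zpow_natCast, hinv _ (pow_ne_zero _ hx), hpow x hx]
      ring
  have hdvd : ∀ x : F, x ≠ 0 → (ε : ℤ) ∣ (σ x).order := by
    intro x hx
    rw [Int.dvd_iff_emod_eq_zero]
    by_contra hne'
    have h7 := Int.emod_nonneg (σ x).order (by omega : (ε : ℤ) ≠ 0)
    have h8 := Int.emod_lt_of_pos (σ x).order (by omega : (0 : ℤ) < ε)
    have h9 : (σ (x * (t ^ ((σ x).order / ε))⁻¹)).order = (σ x).order % ε := by
      rw [hmul _ _ hx (inv_ne_zero (zpow_ne_zero _ ht0)), hinv _ (zpow_ne_zero _ ht0),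
        hzpow _ ht0, ht, Int.emod_def]
      ring
    have h10 := hmin _ (mul_ne_zero hx (inv_ne_zero (zpow_ne_zero ((σ x).order / ε) ht0)))
      (by rw [h9]; omega)
    omega
  have hε0 : (ε : ℤ) ≠ 0 := by omega
  obtain ⟨v, hv⟩ := exists_place_of_ord (k := k) (F := F) (fun f => (σ f).order / ε)
    (by
      intro x y hx hy
      change (σ (x * y)).order / ε = (σ x).order / ε + (σ y).order / ε
      rw [hmul x y hx hy, Int.add_ediv_of_dvd_left (hdvd x hx)])
    (by
      intro x y hx hy hxy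
      change min ((σ x).order / ε) ((σ y).order / ε) ≤ (σ (x + y)).order / ε
      have h1 : min (σ x).order (σ y).order ≤ (σ (x + y)).order := by
        rw [map_add]
        exact HahnSeries.min_order_le_order_add (by rw [← map_add]; exact hne _ hxy)
      rcases le_total (σ x).order (σ y).order with h | h
      · exact (min_le_left _ _).trans (Int.ediv_le_ediv (by omega) (by omega))
      · exact (min_le_right _ _).trans (Int.ediv_le_ediv (by omega) (by omega)))
    (by
      intro a _
      change 0 ≤ (σ (algebraMap k F a)).order / ε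
      rw [hσ, HahnSeries.order_C, Int.zero_ediv])
    ⟨t, ht0, by
      change (σ t).order / ε = 1
      rw [ht]
      exact Int.ediv_self hε0⟩
  refine ⟨v, ε, hpos, fun f hf => ?_⟩
  rw [hv f hf, Int.mul_ediv_cancel' (hdvd f hf)]

/-- `σ` is centred at the place `v`. -/
def Centred (σ : F →+* LaurentSeries L) (v : Place k F) : Prop :=
  ∃ ε : ℕ, 0 < ε ∧ ∀ f, f ≠ 0 → (σ f).order = ε * v.ord f

theorem Centred.unique {σ : F →+* LaurentSeries L} {v w : Place k F} (hv : Centred σ v)
    (hw : Centred σ w) : v = w := by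
  obtain ⟨ε, hε, h1⟩ := hv
  obtain ⟨δ, hδ, h2⟩ := hw
  apply Place.ext
  ext f
  rcases eq_or_ne f 0 with rfl | hf
  · simp
  rw [mem_iff_ord v hf, mem_iff_ord w hf]
  have h3 := (h1 f hf).symm.trans (h2 f hf)
  constructor
  · intro h
    by_contra hlt
    push Not at hlt
    have : (δ : ℤ) * w.ord f < 0 := mul_neg_of_pos_of_neg (by omega) hlt
    have : 0 ≤ (ε : ℤ) * v.ord f := mul_nonneg (by omega) h
    omega
  · intro h
    by_contra hlt
    push Not at hlt
    have : (ε : ℤ) * v.ord f < 0 := mul_neg_of_pos_of_neg (by omega) hlt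
    have : 0 ≤ (δ : ℤ) * w.ord f := mul_nonneg (by omega) h
    omega

end Place

section Bound

variable {k F L : Type*} [Field k] [Field F] [Algebra k F] [Field L]
  [IsAlgClosed k] [IsFunctionField k F]

/-- Reduction step: `f` is congruent to a "monomial" modulo higher order. -/
theorem exists_sub_mem (v : Place k F) {t z : F} (ht : v.ord t = 1) (hz0 : z ≠ 0) {m : ℕ}
    (hm : 0 < m) (hz : v.ord z = m) {f : F} (hf : f ≠ 0) (hf0 : 0 ≤ v.ord f) :
    ∃ (c : k) (q : ℕ) (l : ℕ), l < m ∧ (f - algebraMap k F c * z ^ q * t ^ l = 0 ∨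
      v.ord f + 1 ≤ v.ord (f - algebraMap k F c * z ^ q * t ^ l)) := by
  have ht0 : t ≠ 0 := by
    rintro rfl
    simp at ht
  obtain ⟨K, hK⟩ := Int.eq_ofNat_of_zero_le hf0
  set q := K / m with hq
  set l := K % m with hl
  have hlm : l < m := Nat.mod_lt _ hm
  have hKql : m * q + l = K := Nat.div_add_mod K m
  have hb0 : z ^ q * t ^ l ≠ 0 := mul_ne_zero (pow_ne_zero _ hz0) (pow_ne_zero _ ht0)
  have hb : v.ord (z ^ q * t ^ l) = K := by
    rw [v.ord_mul (pow_ne_zero _ hz0) (pow_ne_zero _ ht0), ord_pow, ord_pow, hz, ht, ← hKql]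
    push_cast
    ring
  set g := f / (z ^ q * t ^ l) with hg
  have hg0 : g ≠ 0 := div_ne_zero hf hb0
  have hgord : v.ord g = 0 := by
    rw [hg, ord_div v hf hb0, hK, hb, sub_self]
  obtain ⟨c, hc⟩ := exists_residue v (f := g)
    (by rw [(val_eq_one_iff v hg0).mpr hgord])
  refine ⟨c, q, l, hlm, ?_⟩
  have hfg : f - algebraMap k F c * z ^ q * t ^ l
      = (g - algebraMap k F c) * (z ^ q * t ^ l) := by
    rw [sub_mul, hg, div_mul_cancel₀ _ hb0]
    ring
  rw [val_lt_one_iff] at hc
  rcases hc with hc | hc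
  · left
    rw [hfg, hc, zero_mul]
  · right
    have h1 : g - algebraMap k F c ≠ 0 := by
      intro h0
      rw [h0] at hc
      simp at hc
    rw [hfg, v.ord_mul h1 hb0, hb, hK]
    omega

/-- **Key bound**: the number of distinct embeddings centred at `v` which agree at `z` (and on
constants) is at most `ord_v z`. -/
theorem card_le_ord (v : Place k F) {z : F} (hz0 : z ≠ 0) {m : ℕ} (hm : 0 < m)
    (hz : v.ord z = m) {X : Type*} [Fintype X] (σ : X → F →+* LaurentSeries L)
    (hinj : Function.Injective σ) (ι : k →+* L)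
    (hσ : ∀ x c, σ x (algebraMap k F c) = HahnSeries.C (ι c)) (ξ : LaurentSeries L)
    (hξ : ∀ x, σ x z = ξ) (hc : ∀ x, Centred (σ x) v) : Fintype.card X ≤ m := by
  classical
  by_contra hlt
  push Not at hlt
  obtain ⟨t, ht0, ht⟩ := exists_ord_eq v 1
  -- a nonzero solution of the linear system
  let Λ₀ : (X → LaurentSeries L) →ₗ[LaurentSeries L] (Fin m → LaurentSeries L) :=
    LinearMap.pi fun l => ∑ x : X, (σ x t ^ (l : ℕ)) • LinearMap.proj x
  have hker : LinearMap.ker Λ₀ ≠ ⊥ := by
    apply LinearMap.ker_ne_bot_of_finrank_lt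
    rw [Module.finrank_fintype_fun_eq_card, Module.finrank_fintype_fun_eq_card, Fintype.card_fin]
    exact hlt
  obtain ⟨a, ha, ha0⟩ := (Submodule.ne_bot_iff _).mp hker
  have ha' : ∀ l : ℕ, l < m → ∑ x : X, a x * σ x t ^ l = 0 := by
    intro l hl
    have h1 := congrFun (LinearMap.mem_ker.mp ha) ⟨l, hl⟩
    simp only [Λ₀, LinearMap.pi_apply, LinearMap.sum_apply, LinearMap.smul_apply,
      LinearMap.proj_apply, smul_eq_mul, Pi.zero_apply] at h1
    rw [← h1]
    exact Finset.sum_congr rfl fun x _ => mul_comm _ _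
  -- the functional
  set Λ : F → LaurentSeries L := fun f => ∑ x : X, a x * σ x f with hΛ
  have hΛsub : ∀ f g, Λ (f - g) = Λ f - Λ g := by
    intro f g
    simp only [hΛ, map_sub, mul_sub, Finset.sum_sub_distrib]
  have hΛmon : ∀ (c : k) (q l : ℕ), l < m → Λ (algebraMap k F c * z ^ q * t ^ l) = 0 := by
    intro c q l hl
    simp only [hΛ, map_mul, map_pow, hσ, hξ]
    have : ∀ x : X, a x * (HahnSeries.C (ι c) * ξ ^ q * σ x t ^ l)
        = (HahnSeries.C (ι c) * ξ ^ q) * (a x * σ x t ^ l) := fun x => by ring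
    simp_rw [this]
    rw [← Finset.mul_sum, ha' l hl, mul_zero]
  -- lower bound for the order
  obtain ⟨C, hC⟩ : ∃ C : ℤ, ∀ x, (C : WithTop ℤ) ≤ (a x).orderTop := by
    refine ⟨-∑ x : X, |(a x).order|, fun x => ?_⟩
    rcases eq_or_ne (a x) 0 with h | h
    · rw [h, HahnSeries.orderTop_zero]
      exact le_top
    · rw [← HahnSeries.order_eq_orderTop_of_ne_zero h]
      have h1 : |(a x).order| ≤ ∑ x : X, |(a x).order| :=
        Finset.single_le_sum (f := fun x => |(a x).order|) (fun _ _ => abs_nonneg _)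
          (Finset.mem_univ x)
      have h2 := neg_abs_le (a x).order
      exact_mod_cast (by linarith : -∑ x : X, |(a x).order| ≤ (a x).order)
  have hbound : ∀ (K : ℕ) (f : F), f ≠ 0 → (K : ℤ) ≤ v.ord f →
      ((C + K : ℤ) : WithTop ℤ) ≤ (Λ f).orderTop := by
    intro K f hf hK
    have h1 : ∀ x, ((C + K : ℤ) : WithTop ℤ) ≤ HahnSeries.addVal ℤ L (a x * σ x f) := by
      intro x
      rw [HahnSeries.addVal_apply, HahnSeries.orderTop_mul, WithTop.coe_add]
      refine add_le_add (hC x) ?_
      obtain ⟨ε, hε, h2⟩ := hc x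
      rw [← HahnSeries.order_eq_orderTop_of_ne_zero ((map_ne_zero (σ x)).mpr hf), h2 f hf]
      have h3 : (K : ℤ) ≤ ε * v.ord f := by nlinarith
      exact_mod_cast h3
    have h2 := AddValuation.map_le_sum (HahnSeries.addVal ℤ L) (s := Finset.univ)
      (f := fun x => a x * σ x f) (g := ((C + K : ℤ) : WithTop ℤ)) (fun x _ => h1 x)
    rwa [HahnSeries.addVal_apply] at h2
  have hred : ∀ (K : ℕ) (f : F), f ≠ 0 → 0 ≤ v.ord f → ∃ g : F, Λ g = Λ f ∧
      (g = 0 ∨ (K : ℤ) ≤ v.ord g) := by
    intro K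
    induction K with
    | zero => exact fun f hf h => ⟨f, rfl, Or.inr (by simpa using h)⟩
    | succ K ih =>
      intro f hf h
      obtain ⟨g, hg, hg'⟩ := ih f hf h
      rcases hg' with rfl | hg'
      · exact ⟨0, hg, Or.inl rfl⟩
      rcases eq_or_ne g 0 with rfl | hg0
      · exact ⟨0, hg, Or.inl rfl⟩
      obtain ⟨c, q, l, hl, h1⟩ := exists_sub_mem v ht hz0 hm hz hg0 (by omega)
      refine ⟨g - algebraMap k F c * z ^ q * t ^ l, ?_, ?_⟩
      · rw [hΛsub, hΛmon c q l hl, sub_zero, hg]
      · rcases h1 with h1 | h1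
        · left; exact h1
        · right
          push_cast
          omega
  have hzero : ∀ f : F, f ≠ 0 → 0 ≤ v.ord f → Λ f = 0 := by
    intro f hf h
    by_contra hne
    have h1 : (Λ f).orderTop ≠ ⊤ := by
      rwa [ne_eq, HahnSeries.orderTop_eq_top]
    obtain ⟨o, ho⟩ := WithTop.ne_top_iff_exists.mp h1
    obtain ⟨g, hg, hg'⟩ := hred (o - C + 1).toNat f hf h
    rcases hg' with rfl | hg'
    · apply hne
      rw [← hg]
      simp [hΛ]
    rcases eq_or_ne g 0 with rfl | hg0
    · apply hne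
      rw [← hg]
      simp [hΛ]
    have h2 := hbound _ g hg0 hg'
    rw [hg, ← ho] at h2
    have h3 := WithTop.coe_le_coe.mp h2
    omega
  have hzero' : ∀ f : F, Λ f = 0 := by
    intro f
    rcases eq_or_ne f 0 with rfl | hf
    · simp [hΛ]
    set q := (v.ord f).natAbs with hq
    have h1 : z ^ q * f ≠ 0 := mul_ne_zero (pow_ne_zero _ hz0) hf
    have h2 : Λ (z ^ q * f) = 0 := by
      apply hzero _ h1
      rw [v.ord_mul (pow_ne_zero _ hz0) hf, ord_pow, hz]
      have : (q : ℤ) ≤ q * m := by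
        have : (1 : ℤ) ≤ m := by omega
        nlinarith
      omega
    have h3 : Λ (z ^ q * f) = ξ ^ q * Λ f := by
      simp only [hΛ, map_mul, map_pow, hξ]
      rw [Finset.mul_sum]
      exact Finset.sum_congr rfl fun x _ => by ring
    rw [h3] at h2
    have hξ0 : ξ ≠ 0 := by
      have : Nonempty X := Fintype.card_pos_iff.mp (by omega)
      obtain ⟨x⟩ := this
      rw [← hξ x]
      exact (map_ne_zero (σ x)).mpr hz0
    exact (mul_eq_zero.mp h2).resolve_left (pow_ne_zero _ hξ0)
  -- contradiction with linear independence of characters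
  have hli := linearIndependent_monoidHom F (LaurentSeries L)
  have hli2 : LinearIndependent (LaurentSeries L)
      (fun x : X => ((σ x : F →* LaurentSeries L) : F → LaurentSeries L)) := by
    refine hli.comp (fun x : X => (σ x : F →* LaurentSeries L)) ?_
    intro x y hxy
    apply hinj
    ext1 f
    exact DFunLike.congr_fun hxy f
  rw [Fintype.linearIndependent_iff] at hli2
  apply ha0
  funext x
  refine hli2 a ?_ x
  funext f
  have := hzero' f
  simpa [hΛ, Finset.sum_apply] using this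

end Bound

end Fermat.Agent.GenusX0
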