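import Fermat.Agent.GenusX0.Places
import Fermat.Agent.S20
import Fermat.Prelude.Def_ModularCurve_GenusNumerics

/-!
# The genus of `X₀(N)`
-/

set_option autoImplicit false

noncomputable section

open ModularCurve UpperHalfPlane IntermediateField AlgebraicCurve
open scoped MatrixGroups KaehlerDifferential

namespace Fermat.Agent.GenusX0

open Fermat.Agent.ModFun Fermat.Agent.DimS2 Fermat.Agent.Curves

/-- embeddings of an algebraic closure -/
theorem exists_emb (K M : Type*) [Field K] [Field M] [IsAlgClosed M] [Algebra K M] :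
    Nonempty (AlgebraicClosure K →+* M) :=
  ⟨(IsAlgClosed.lift (R := K) (S := AlgebraicClosure K) (M := M)).toRingHom⟩

section General

variable {k F : Type*} [Field k] [Field F] [Algebra k F] [IsAlgClosed k] [CharZero k]
  [IsFunctionField k F]

omit [CharZero k] in
theorem degree_single' (v : Place k F) (n : ℤ) :
    Divisor.degree (Finsupp.single v n : Divisor k F) = n := by
  rw [Divisor.degree_single, deg_eq_one]
  simp

/-- The divisor of `dJ` as an explicit finite sum. -/
theorem degree_of_dJ (J : F) (c : k) (D : Divisor k F) (S0 S1 S2 : Finset (Place k F))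
    (h0 : ∀ v, v ∈ S0 ↔ 0 < v.ord J)
    (h1 : ∀ v, v ∈ S1 ↔ 0 < v.ord (J - algebraMap k F c))
    (h2 : ∀ v, v ∈ S2 ↔ 0 < v.ord J⁻¹) (hJ : J ≠ 0) (hc : c ≠ 0)
    (hD0 : ∀ v, 0 < v.ord J → D v = v.ord J - 1)
    (hD1 : ∀ v, 0 < v.ord (J - algebraMap k F c) → D v = v.ord (J - algebraMap k F c) - 1)
    (hD2 : ∀ v, 0 < v.ord J⁻¹ → D v = -v.ord J⁻¹ - 1)
    (hD3 : ∀ v, ¬ 0 < v.ord J → ¬ 0 < v.ord (J - algebraMap k F c) → ¬ 0 < v.ord J⁻¹ → D v = 0) :
    Divisor.degree D = (∑ v ∈ S0, v.ord J - S0.card) + (∑ v ∈ S1, v.ord (J - algebraMap k F c) - S1.card)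
      - (∑ v ∈ S2, v.ord J⁻¹ + S2.card) := by
  classical
  have hdis : ∀ v : Place k F, 0 < v.ord J → ¬ 0 < v.ord (J - algebraMap k F c) := by
    intro v hv hv'
    have hc' : algebraMap k F c ≠ 0 := by simpa using hc
    have hne : J - algebraMap k F c ≠ 0 := by
      intro h
      rw [h] at hv'
      simp at hv'
    have e1 : J = (J - algebraMap k F c) + algebraMap k F c := by ring
    have e2 : algebraMap k F c = J + -(J - algebraMap k F c) := by ring
    have h3 := ord_add v (f := J) (g := -(J - algebraMap k F c)) (by rw [← e2]; exact hc') hJ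
      (neg_ne_zero.mpr hne)
    rw [← e2, ord_algebraMap, ord_neg] at h3
    have := lt_min hv hv'
    omega
  have hdis2 : ∀ v : Place k F, 0 < v.ord J → ¬ 0 < v.ord J⁻¹ := by
    intro v hv hv'
    rw [v.ord_inv] at hv'
    omega
  have hdis3 : ∀ v : Place k F, 0 < v.ord (J - algebraMap k F c) → ¬ 0 < v.ord J⁻¹ := by
    intro v hv hv'
    rw [v.ord_inv] at hv'
    have hc' : algebraMap k F c ≠ 0 := by simpa using hc
    have hne : J - algebraMap k F c ≠ 0 := by
      intro h
      rw [h] at hv
      simp at hv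
    have e1 : J = (J - algebraMap k F c) + algebraMap k F c := by ring
    have h3 := ord_add v (f := J - algebraMap k F c) (g := algebraMap k F c)
      (by rw [← e1]; exact hJ) hne hc'
    rw [← e1, ord_algebraMap] at h3
    have : (0 : ℤ) ≤ min (v.ord (J - algebraMap k F c)) 0 := le_min hv.le le_rfl
    omega
  have hD : D = ∑ v ∈ S0, Finsupp.single v (v.ord J - 1) +
      ∑ v ∈ S1, Finsupp.single v (v.ord (J - algebraMap k F c) - 1) -
      ∑ v ∈ S2, Finsupp.single v (v.ord J⁻¹ + 1) := by
    ext w
    rw [Finsupp.sub_apply, Finsupp.add_apply, Finsupp.finsetSum_apply, Finsupp.finsetSum_apply,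
      Finsupp.finsetSum_apply]
    simp only [Finsupp.single_apply, Finset.sum_ite_eq']
    by_cases w0 : 0 < w.ord J
    · rw [if_pos ((h0 w).mpr w0), if_neg (fun h => hdis w w0 ((h1 w).mp h)),
        if_neg (fun h => hdis2 w w0 ((h2 w).mp h)), hD0 w w0]
      ring
    · by_cases w1 : 0 < w.ord (J - algebraMap k F c)
      · rw [if_neg (fun h => w0 ((h0 w).mp h)), if_pos ((h1 w).mpr w1),
          if_neg (fun h => hdis3 w w1 ((h2 w).mp h)), hD1 w w1]
        ring
      · by_cases w2 : 0 < w.ord J⁻¹
        · rw [if_neg (fun h => w0 ((h0 w).mp h)), if_neg (fun h => w1 ((h1 w).mp h)),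
            if_pos ((h2 w).mpr w2), hD2 w w2]
          ring
        · rw [if_neg (fun h => w0 ((h0 w).mp h)), if_neg (fun h => w1 ((h1 w).mp h)),
            if_neg (fun h => w2 ((h2 w).mp h)), hD3 w w0 w1 w2]
          ring
  rw [hD, map_sub, map_add, map_sum, map_sum, map_sum]
  simp only [degree_single', Finset.sum_sub_distrib, Finset.sum_add_distrib, Finset.sum_const,
    nsmul_eq_mul, mul_one]

/-- The degree of the divisor of any nonzero differential, from that of `dJ`. -/
theorem degree_canonical [HasCanonicalDivisor (K := k) (F := F)] {J : F}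
    (hJ : Transcendental k J) (hJD : KaehlerDifferential.D k F J ≠ 0) {ω : Ω[F⁄k]} (hω : ω ≠ 0) :
    Divisor.degree (canonicalDivisorOf hω) = Divisor.degree (canonicalDivisorOf hJD) := by
  have hmem : ω ∈ Submodule.span F {KaehlerDifferential.D k F J} := by
    rw [span_D_eq_top hJ]
    exact Submodule.mem_top
  obtain ⟨f, hf⟩ := Submodule.mem_span_singleton.mp hmem
  have hf0 : f ≠ 0 := by
    rintro rfl
    rw [zero_smul] at hf
    exact hω hf.symm
  have : Nontrivial Ω[F⁄k] := ⟨⟨_, _, hJD⟩⟩
  have h1 : canonicalDivisorOf hω = divisorOf f + canonicalDivisorOf hJD := by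
    ext v
    have := dCoordGenerates v
    rw [canonicalDivisorOf_apply, Finsupp.add_apply, canonicalDivisorOf_apply, divisorOf_apply,
      ← hf]
    apply v.ordDifferential_smul hf0
    intro h0
    have h2 := v.differentialCoeff_smul_dCoord (KaehlerDifferential.D k F J)
    rw [h0, zero_smul] at h2
    exact hJD h2.symm
  rw [h1, map_add, degree_divisorOf, zero_add]

end General

section Mod

variable {k : Type*} [Field k] [IsAlgClosed k] [CharZero k] (ι : k →+* ℂ) {N : ℕ} [NeZero N]

theorem degree_dj [HasCanonicalDivisor (K := k) (F := modularFunctionFieldFullC k N)]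
    (hJD : KaehlerDifferential.D k (modularFunctionFieldFullC k N) (je k N) ≠ 0) (ι : k →+* ℂ) :
    6 * Divisor.degree (canonicalDivisorOf hJD) =
      dedekindPsi N - 4 * nuThree N - 3 * nuTwo N - 6 * cuspCount N := by
  classical
  have hj0 : je k N ≠ 0 := fun h => transcendental_je (k := k) (N := N) (h ▸ isAlgebraic_zero)
  have h := degree_of_dJ (je k N) (1728 : k) (canonicalDivisorOf hJD) (zeros k (je k N))
    (zeros k (je k N - algebraMap k _ 1728)) (zeros k (je k N)⁻¹)
    (fun v => mem_zeros) (fun v => mem_zeros) (fun v => mem_zeros) hj0 (by norm_num)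
    (fun v hv => by
      rw [canonicalDivisorOf_apply]
      have := ordDiff_je_pos v ι (c := 0) (by rwa [map_zero, sub_zero])
      rwa [map_zero, sub_zero] at this)
    (fun v hv => by
      rw [canonicalDivisorOf_apply]
      exact ordDiff_je_pos v ι hv)
    (fun v hv => by
      rw [canonicalDivisorOf_apply, ordDiff_je_neg v ι (by rw [v.ord_inv] at hv; omega), v.ord_inv]
      ring)
    (fun v h0 h1 h2 => by
      rw [canonicalDivisorOf_apply]
      rcases place_cases v with h3 | ⟨c, hc⟩
      · exfalso
        apply h2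
        rw [v.ord_inv]
        omega
      · have hc0 : c ≠ 0 := by
          rintro rfl
          rw [map_zero, sub_zero] at hc
          exact h0 hc
        have hc1 : c ≠ 1728 := by
          rintro rfl
          exact h1 hc
        have h4 := ord_je_sub_le_one v ι hc0 hc1
        rw [ordDiff_je_pos v ι hc]
        omega)
  have s0 := sum_zeros_eq (isLoc_rho (k := k) (N := N) ι)
  have s1 := sum_zeros_eq (isLoc_I (k := k) (N := N) ι)
  have s2 := sum_zeros_eq (isLoc_cusp (k := k) (N := N) ι)
  rw [s0, s1, s2] at h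
  have c0 := card_zeros_prime (isLoc_rho (k := k) (N := N) ι) Nat.prime_three
  have c1 := card_zeros_prime (isLoc_I (k := k) (N := N) ι) Nat.prime_two
  have c2 := card_zeros_eq (isLoc_cusp (k := k) (N := N) ι)
  have f0 : Nat.card {x : Cos N // (ptRho.toUDN N).s • x = x} = nuThree N :=
    Gamma0Comb.card_fix_ST N
  have f1 : Nat.card {x : Cos N // (ptI.toUDN N).s • x = x} = nuTwo N :=
    Gamma0Comb.card_fix_S N
  have f2 : Nat.card (MulAction.orbitRel.Quotient (Subgroup.zpowers (cuspUDN N).s) (Cos N)) =
    cuspCount N := Gamma0Comb.card_orbits_T N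
  rw [f0] at c0
  rw [f1] at c1
  rw [f2] at c2
  have c0' : 3 * (zeros k (je k N)).card = dedekindPsi N + 2 * nuThree N := c0
  have c1' : 2 * (zeros k (je k N - algebraMap k (modularFunctionFieldFullC k N) 1728)).card =
    dedekindPsi N + 1 * nuTwo N := c1
  rw [h, c2]
  zify at c0' c1'
  linear_combination (-2) * c0' - 3 * c1'

theorem genus_eq (ι : k →+* ℂ)
    [HasCanonicalDivisor (K := k) (F := modularFunctionFieldFullC k N)] :
    (genus k (modularFunctionFieldFullC k N) : ℚ) = genusFormula N := by
  have hJD := D_je_ne_zero (k := k) (N := N) ι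
  have hex : ∃ ω : Ω[(modularFunctionFieldFullC k N)⁄k], ω ≠ 0 := ⟨_, hJD⟩
  have h1 := degree_dj (k := k) (N := N) hJD ι
  have h2 := degree_canonical (transcendental_je (k := k) (N := N)) hJD hex.choose_spec
  have hS := S20.result N
  set g := Module.finrank ℂ (CuspForm
    ((CongruenceSubgroup.Gamma0 N).map (Matrix.SpecialLinearGroup.mapGL ℝ)) 2) with hg
  have h3 : Divisor.degree (canonicalDivisorOf hex.choose_spec) + 2 = 2 * (g : ℤ) := by
    rw [h2]
    have h4 : (6 * Divisor.degree (canonicalDivisorOf hJD) : ℚ) =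
        dedekindPsi N - 4 * nuThree N - 3 * nuTwo N - 6 * cuspCount N := by exact_mod_cast h1
    have h5 : (Divisor.degree (canonicalDivisorOf hJD) + 2 : ℚ) = 2 * g := by
      rw [hS, genusFormula]
      linear_combination h4 / 6
    exact_mod_cast h5
  have h4 : genus k (modularFunctionFieldFullC k N) = g := by
    unfold genus
    rw [dif_pos hex, h3]
    omega
  rw [h4, hS]

/-- version for a field equal to the modular function field -/
theorem genus_eq' (ι : k →+* ℂ) (E : IntermediateField k (LaurentSeries k))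
    (hE : E = modularFunctionFieldFullC k N) [HasCanonicalDivisor (K := k) (F := E)] :
    (genus k E : ℚ) = genusFormula N := by
  subst hE
  exact genus_eq ι

end Mod

end Fermat.Agent.GenusX0
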