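import Fermat.Agent.ModFun.LevelOne
import Fermat.Agent.DimS2.Count

/-!
# The derivative of `j`
-/

set_option autoImplicit false

noncomputable section

open HahnSeries ModularCurve UpperHalfPlane Filter Topology Function.Periodic
open scoped MatrixGroups ModularForm Manifold Derivative

namespace Fermat.Agent.GenusX0

open Fermat.Agent.ModFun Fermat.Agent.DimS2

/-- `q j(q)` -/
def Hj : PowerSeries ℂ := jNum.map (Int.castRingHom ℂ)

/-- `Δ(q) / q` -/
def Pd : PowerSeries ℂ := dedekindEtaUnit.map (Int.castRingHom ℂ)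

theorem pconv_Hj : PConv Hj := by
  unfold Hj jNum
  rw [map_mul, map_pow]
  exact (pconv_E4.pow 3).mul etaUnitInv_conv.1

theorem pconv_Pd : PConv Pd := pconv_etaUnit

theorem pev_zero (G : PowerSeries ℂ) : pev G 0 = PowerSeries.constantCoeff G := by
  unfold pev
  rw [tsum_eq_single 0]
  · simp
  · intro n hn
    simp [hn]

theorem pev_Hj_zero : pev Hj 0 = 1 := by
  rw [pev_zero, Hj, ← PowerSeries.coeff_zero_eq_constantCoeff_apply, PowerSeries.coeff_map,
    PowerSeries.coeff_zero_eq_constantCoeff_apply, constantCoeff_jNum, map_one]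

theorem pev_Pd_zero : pev Pd 0 = 1 := by
  rw [pev_zero, Pd, ← PowerSeries.coeff_zero_eq_constantCoeff_apply, PowerSeries.coeff_map,
    PowerSeries.coeff_zero_eq_constantCoeff_apply, constantCoeff_dedekindEtaUnit, map_one]

theorem jfun_eq (τ : ℍ) : jfun τ = (qParam 1 τ)⁻¹ * pev Hj (qParam 1 τ) := by
  have h : jqModC ℂ = HahnSeries.single (-1) 1 * HahnSeries.ofPowerSeries ℤ ℂ Hj := rfl
  rw [← evf_jqModC, h, evf_mul (pdisc_q τ).ne_zero (convAt_single _ _ _)
    (pconv_Hj.mem_convLaurent _ (pdisc_q τ)), evf_single, evf_ofPowerSeries, one_mul, zpow_neg_one]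
  rfl

theorem disc_eq' (τ : ℍ) : ModularForm.discriminant τ = qParam 1 τ * pev Pd (qParam 1 τ) := by
  rw [discriminant_eq, Pd, ← pev_etaUnit (pdisc_q τ)]

theorem hasDerivAt_qParam (z : ℂ) : HasDerivAt (qParam 1) (2 * Real.pi * Complex.I * qParam 1 z) z := by
  unfold qParam
  have h1 : HasDerivAt (fun z : ℂ => 2 * Real.pi * Complex.I * z / (1 : ℝ))
      (2 * Real.pi * Complex.I) z := by
    have := ((hasDerivAt_id z).const_mul (2 * Real.pi * Complex.I : ℂ)).div_const ((1 : ℝ) : ℂ)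
    simpa using this
  have h2 := h1.cexp
  exact h2.congr_deriv (mul_comm _ _)

theorem jfun_comp_eqOn : Set.EqOn (jfun ∘ ofComplex)
    (fun z : ℂ => (qParam 1 z)⁻¹ * pev Hj (qParam 1 z)) {z | 0 < z.im} := by
  intro z hz
  have := jfun_eq ⟨z, hz⟩
  simp only [Function.comp_apply]
  rw [ofComplex_apply_of_im_pos hz, this]

theorem hasDerivAt_pev {G : PowerSeries ℂ} (hG : PConv G) {z : ℂ} (hz : ‖z‖ < 1) :
    HasDerivAt (pev G) (deriv (pev G) z) z :=
  ((differentiableOn_pev hG).differentiableAt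
    (Metric.isOpen_ball.mem_nhds (by simpa using hz))).hasDerivAt

theorem hasDerivAt_jfun (τ : ℍ) : HasDerivAt (jfun ∘ ofComplex)
    (2 * Real.pi * Complex.I * (-(qParam 1 τ)⁻¹ * pev Hj (qParam 1 τ)
      + deriv (pev Hj) (qParam 1 τ))) (τ : ℂ) := by
  have h1 := hasDerivAt_qParam (τ : ℂ)
  have hq0 : qParam 1 (τ : ℂ) ≠ 0 := qParam_ne_zero _
  have h2 := (hasDerivAt_pev pconv_Hj (norm_q_lt_one τ)).comp (τ : ℂ) h1
  have h3 := (h1.inv hq0).mul h2
  have h4 := h3.congr_of_eventuallyEq (f₁ := jfun ∘ ofComplex) (by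
    filter_upwards [isOpen_upperHalfPlaneSet.mem_nhds τ.im_pos] with z hz
    exact jfun_comp_eqOn hz)
  refine h4.congr_deriv ?_
  simp only [Function.comp_apply, Pi.inv_apply]
  field_simp

theorem mdiff_jfun : MDiff jfun := by
  rw [UpperHalfPlane.mdifferentiable_iff]
  intro z hz
  exact (hasDerivAt_jfun ⟨z, hz⟩).differentiableAt.differentiableWithinAt

theorem D_jfun (τ : ℍ) : D jfun τ = -(qParam 1 τ)⁻¹ * pev Hj (qParam 1 τ)
      + deriv (pev Hj) (qParam 1 τ) := by
  unfold Derivative.normalizedDerivOfComplex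
  rw [(hasDerivAt_jfun τ).deriv]
  have : (2 * Real.pi * Complex.I : ℂ) ≠ 0 := Complex.two_pi_I_ne_zero
  field_simp

theorem jfun_slash (γ : SL(2, ℤ)) : jfun ∣[(0 : ℤ)] γ = jfun := by
  ext τ
  rw [ModularForm.SL_slash_apply]
  simp only [zpow_zero, neg_zero, mul_one]
  exact jfun_smul γ τ

theorem D_jfun_slash (γ : SL(2, ℤ)) : (D jfun) ∣[(2 : ℤ)] γ = D jfun := by
  have h := Derivative.normalizedDerivOfComplex_SL_slash (k := 0) mdiff_jfun (γ := γ)
  rw [jfun_slash] at h
  have h2 : (fun z : ℍ ↦ ((0 : ℤ) : ℂ) * (2 * Real.pi * Complex.I)⁻¹ *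
      (γ 1 0 / denom γ z) * (jfun) z) = 0 := by
    ext z
    simp
  rw [h2, sub_zero, zero_add] at h
  exact h.symm

theorem disc_mul_D (τ : ℍ) : ModularForm.discriminant τ * D jfun τ =
    pev Pd (qParam 1 τ) * (-pev Hj (qParam 1 τ) + qParam 1 τ * deriv (pev Hj) (qParam 1 τ)) := by
  rw [D_jfun, disc_eq']
  have hq0 : qParam 1 (τ : ℂ) ≠ 0 := qParam_ne_zero _
  field_simp

theorem tendsto_disc_mul_D : Tendsto (fun τ : ℍ => ModularForm.discriminant τ * D jfun τ)
    atImInfty (𝓝 (-1)) := by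
  simp_rw [disc_mul_D]
  have h0 : (0 : ℂ) ∈ Metric.ball (0 : ℂ) 1 := by simp
  have c1 : ContinuousAt (pev Pd) 0 :=
    (differentiableOn_pev pconv_Pd).continuousOn.continuousAt (Metric.isOpen_ball.mem_nhds h0)
  have c2 : ContinuousAt (pev Hj) 0 :=
    (differentiableOn_pev pconv_Hj).continuousOn.continuousAt (Metric.isOpen_ball.mem_nhds h0)
  have c3 : ContinuousAt (deriv (pev Hj)) 0 :=
    ((differentiableOn_pev pconv_Hj).deriv Metric.isOpen_ball).continuousOn.continuousAt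
      (Metric.isOpen_ball.mem_nhds h0)
  have c : ContinuousAt (fun z : ℂ => pev Pd z * (-pev Hj z + z * deriv (pev Hj) z)) 0 :=
    c1.mul (c2.neg.add (continuousAt_id.mul c3))
  have h1 := c.tendsto.comp (UpperHalfPlane.qParam_tendsto_atImInfty zero_lt_one)
  rw [pev_Hj_zero, pev_Pd_zero] at h1
  rw [show (-1 : ℂ) = 1 * (-1 + 0 * deriv (pev Hj) 0) by ring]
  exact h1

theorem isL1_disc_mul_D : IsL1 14 (ModularForm.discriminant * D jfun) where
  slash γ := by
    rw [show (14 : ℤ) = 12 + 2 by norm_num, ModularForm.mul_slash_SL2, D_jfun_slash]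
    congr 1
    exact (isL1_coe_cusp CuspForm.discriminant).slash γ
  holo := (isL1_coe_cusp CuspForm.discriminant).holo.mul
    (Derivative.normalizedDerivOfComplex_mdifferentiable mdiff_jfun)
  bdd := by
    have := tendsto_disc_mul_D.isBigO_one (F := ℝ)
    exact this

theorem e4_sq_e6_ne_zero : (e4 ^ 2 * e6 : ℍ → ℂ) ≠ 0 := by
  intro h
  have h4 : MDiff (e4 ^ 2) := (e4_isL1.pow 2).holo
  rcases (UpperHalfPlane.mul_eq_zero_iff h4 e6_isL1.holo).mp h with h2 | h2
  · apply e4_ne_zero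
    ext z
    have := congrFun h2 z
    simpa using this
  · exact e6_ne_zero h2

/-- `j' Δ = c E₄² E₆`. -/
theorem exists_const : ∃ c : ℂ, c ≠ 0 ∧ ∀ τ : ℍ,
    ModularForm.discriminant τ * D jfun τ = c * (e4 τ ^ 2 * e6 τ) := by
  have hF := isL1_disc_mul_D
  have hG : IsL1 14 (e4 ^ 2 * e6) := by
    have := (e4_isL1.pow 2).mul e6_isL1
    exact this.congr_weight (by norm_num)
  have hrank := ModularForm.dimension_level_one 14 (by decide)
  have hfr : Module.finrank ℂ (ModularForm 𝒮ℒ 14) = 1 := by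
    apply Module.finrank_eq_of_rank_eq
    have : ((14 : ℕ) : ℤ) = 14 := rfl
    rw [this] at hrank
    rw [hrank]
    norm_num [Nat.ModEq]
  have hne : hG.toMF ≠ 0 := by
    intro h0
    apply e4_sq_e6_ne_zero
    have := congrArg (fun f : ModularForm 𝒮ℒ 14 => (f : ℍ → ℂ)) h0
    simpa using this
  obtain ⟨c, hc⟩ := (finrank_eq_one_iff_of_nonzero' _ hne).mp hfr hF.toMF
  have hc' : ∀ τ : ℍ, ModularForm.discriminant τ * D jfun τ = c * (e4 τ ^ 2 * e6 τ) := by
    intro τ
    have := congrArg (fun f : ModularForm 𝒮ℒ 14 => (f : ℍ → ℂ) τ) hc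
    simpa using this.symm
  refine ⟨c, ?_, hc'⟩
  rintro rfl
  have h1 := tendsto_disc_mul_D
  simp_rw [hc', zero_mul] at h1
  have h2 := tendsto_nhds_unique h1 tendsto_const_nhds
  norm_num at h2

end Fermat.Agent.GenusX0
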