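import Fermat.Agent.GenusX0.Count
import Fermat.Agent.ModFun.Tower1
import Fermat.Agent.Gamma0Comb.Orbits

/-!
# Expansions of modular functions with respect to a uniformising datum
-/

set_option autoImplicit false

noncomputable section

open HahnSeries ModularCurve UpperHalfPlane Filter Topology Function.Periodic
open scoped MatrixGroups Manifold

namespace Fermat.Agent.GenusX0

open Fermat.Agent.ModFun

/-- `τ ↦ dτ`. -/
def dm (d : ℕ) [NeZero d] (τ : ℍ) : ℍ := ⟨(d : ℂ) * τ, by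
  have hd : (0 : ℝ) < d := by exact_mod_cast Nat.pos_of_ne_zero (NeZero.ne d)
  simp only [Complex.mul_im, Complex.natCast_re, Complex.natCast_im, zero_mul, add_zero]
  exact mul_pos hd τ.im_pos⟩

theorem coe_dm (d : ℕ) [NeZero d] (τ : ℍ) : (dm d τ : ℂ) = d * τ := rfl

theorem dm_one (τ : ℍ) : dm 1 τ = τ := by
  ext
  rw [coe_dm, Nat.cast_one, one_mul]

theorem q_pow (d : ℕ) [NeZero d] (τ : ℍ) : (qParam 1 (τ : ℂ)) ^ d = qParam 1 (dm d τ : ℂ) := by
  rw [qParam, qParam, ← Complex.exp_nat_mul, coe_dm]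
  congr 1
  push_cast
  ring

/-- Uniformising data: a map `u : ℍ → 𝔻` together with an element acting by a rotation. -/
structure UD where
  u : ℍ → ℂ
  s : SL(2, ℤ)
  ζ : ℂˣ
  e : ℕ
  e_pos : 0 < e
  prim : IsPrimitiveRoot ζ e
  norm_lt : ∀ τ, ‖u τ‖ < 1
  smul : ∀ τ, u (s • τ) = ζ * u τ
  surj : ∀ z, PDisc z → ∃ τ, u τ = z
  dense : ∀ f : ℍ → ℂ, MDiff f → (∀ τ, u τ ≠ 0 → f τ = 0) → ∀ τ, f τ = 0

/-- `F` is the `u`-expansion of the function `f`. -/
def HasExp (U : UD) (f : ℍ → ℂ) (F : LaurentSeries ℂ) : Prop :=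
  F ∈ convLaurent ∧ ∀ τ, U.u τ ≠ 0 → evf F (U.u τ) = f τ

theorem UD.pdisc (U : UD) {τ : ℍ} (h : U.u τ ≠ 0) : PDisc (U.u τ) :=
  ⟨norm_pos_iff.mpr h, U.norm_lt τ⟩

theorem eq_zero_of_evf {F : LaurentSeries ℂ} (hF : F ∈ convLaurent)
    (h : ∀ z, PDisc z → evf F z = 0) : F = 0 := by
  obtain ⟨m, G, rfl⟩ := exists_shift F
  have hG : HahnSeries.ofPowerSeries ℤ ℂ G ∈ convLaurent := by
    have h1 := convLaurent.mul_mem (single_mem_convLaurent (m : ℤ) 1) hF
    rw [← mul_assoc, HahnSeries.single_mul_single, mul_one, add_neg_cancel] at h1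
    simpa using h1
  have hG' := PConv.of_mem_convLaurent hG
  have : G = 0 := by
    apply hG'.eq_zero
    intro τ
    have h2 := h _ (pdisc_q τ)
    rw [evf_mul (pdisc_q τ).ne_zero (convAt_single _ _ _) (hG _ (pdisc_q τ)), evf_single,
      evf_ofPowerSeries, one_mul] at h2
    rcases mul_eq_zero.mp h2 with h3 | h3
    · exact absurd h3 (zpow_ne_zero _ (pdisc_q τ).ne_zero)
    · exact h3
  rw [this, map_zero, mul_zero]

theorem HasExp.unique {U : UD} {f : ℍ → ℂ} {F G : LaurentSeries ℂ} (hF : HasExp U f F)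
    (hG : HasExp U f G) : F = G := by
  rw [← sub_eq_zero]
  apply eq_zero_of_evf (convLaurent.sub_mem hF.1 hG.1)
  intro z hz
  obtain ⟨τ, rfl⟩ := U.surj z hz
  have h1 := map_sub (ev _ hz) ⟨F, hF.1⟩ ⟨G, hG.1⟩
  have h2 : evf (F - G) (U.u τ) = evf F (U.u τ) - evf G (U.u τ) := h1
  rw [h2, hF.2 τ hz.ne_zero, hG.2 τ hz.ne_zero, sub_self]

theorem HasExp.add {U : UD} {f g : ℍ → ℂ} {F G : LaurentSeries ℂ} (hF : HasExp U f F)
    (hG : HasExp U g G) : HasExp U (fun τ => f τ + g τ) (F + G) := by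
  refine ⟨convLaurent.add_mem hF.1 hG.1, fun τ hτ => ?_⟩
  rw [evf_add (hF.1 _ (U.pdisc hτ)) (hG.1 _ (U.pdisc hτ)), hF.2 τ hτ, hG.2 τ hτ]

theorem HasExp.mul {U : UD} {f g : ℍ → ℂ} {F G : LaurentSeries ℂ} (hF : HasExp U f F)
    (hG : HasExp U g G) : HasExp U (fun τ => f τ * g τ) (F * G) := by
  refine ⟨convLaurent.mul_mem hF.1 hG.1, fun τ hτ => ?_⟩
  rw [evf_mul hτ (hF.1 _ (U.pdisc hτ)) (hG.1 _ (U.pdisc hτ)), hF.2 τ hτ, hG.2 τ hτ]

theorem hasExp_const (U : UD) (c : ℂ) : HasExp U (fun _ => c) (HahnSeries.C c) := by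
  refine ⟨single_mem_convLaurent 0 c, fun τ _ => ?_⟩
  rw [HahnSeries.C_apply, evf_single, zpow_zero, mul_one]

theorem HasExp.twist {U : UD} {f : ℍ → ℂ} {F : LaurentSeries ℂ} (hF : HasExp U f F) :
    HasExp U (fun τ => f (U.s • τ)) (twist U.ζ F) := by
  have hζ : ‖(U.ζ : ℂ)‖ = 1 := by
    have h1 : (U.ζ : ℂ) ^ U.e = 1 := by
      have := congrArg Units.val U.prim.pow_eq_one
      rwa [Units.val_pow_eq_pow_val, Units.val_one] at this
    exact Complex.norm_eq_one_of_pow_eq_one h1 U.e_pos.ne'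
  refine ⟨twist_mem_convLaurent _ hζ hF.1, fun τ hτ => ?_⟩
  rw [evf_twist, ← U.smul]
  apply hF.2
  rw [U.smul]
  exact mul_ne_zero (Units.ne_zero _) hτ

/-- Evaluate an element of `k((q))` at a point. -/
def fn {k : Type*} [Field k] (ι : k →+* ℂ) (x : LaurentSeries k) (τ : ℍ) : ℂ :=
  evf (coeffMap ι x) (qParam 1 (τ : ℂ))

section Field

variable {k : Type*} [Field k] (ι : k →+* ℂ)

theorem fn_add {x y : LaurentSeries k} (hx : coeffMap ι x ∈ convLaurent)
    (hy : coeffMap ι y ∈ convLaurent) (τ : ℍ) : fn ι (x + y) τ = fn ι x τ + fn ι y τ := by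
  rw [fn, map_add, evf_add (hx _ (pdisc_q τ)) (hy _ (pdisc_q τ))]
  rfl

theorem fn_mul {x y : LaurentSeries k} (hx : coeffMap ι x ∈ convLaurent)
    (hy : coeffMap ι y ∈ convLaurent) (τ : ℍ) : fn ι (x * y) τ = fn ι x τ * fn ι y τ := by
  rw [fn, map_mul, evf_mul (pdisc_q τ).ne_zero (hx _ (pdisc_q τ)) (hy _ (pdisc_q τ))]
  rfl

theorem fn_algebraMap (c : k) (τ : ℍ) :
    fn ι (algebraMap k (LaurentSeries k) c) τ = ι c := by
  rw [fn, algebraMap_laurentSeries_eq_single, coeffMap_single, evf_single, zpow_zero, mul_one]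

theorem coeffMap_algebraMap_mem (c : k) :
    coeffMap ι (algebraMap k (LaurentSeries k) c) ∈ convLaurent := by
  rw [algebraMap_laurentSeries_eq_single, coeffMap_single]
  exact single_mem_convLaurent 0 _

theorem coeffMap_gen (d : ℕ) [NeZero d] :
    coeffMap ι (qExpand k d (jqModC k)) = qExpand ℂ d (jqModC ℂ) := by
  have h1 := coeffMap_jqNModC (f := ι) d
  exact h1

theorem fn_gen (d : ℕ) [NeZero d] (τ : ℍ) : fn ι (qExpand k d (jqModC k)) τ = jfun (dm d τ) := by
  rw [fn, coeffMap_gen, evf_qExpand, q_pow, evf_jqModC]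

/-- The coordinate ring of polynomials in the `j(dτ)`. -/
abbrev Bk (k : Type*) [Field k] (N : ℕ) : Subalgebra k (LaurentSeries k) :=
  Algebra.adjoin k (divisorExpansionsC k N)

theorem conv_of_mem_Bk {N : ℕ} {x : LaurentSeries k} (hx : x ∈ Bk k N) :
    coeffMap ι x ∈ convLaurent := by
  induction hx using Algebra.adjoin_induction with
  | mem x hx =>
    obtain ⟨d, hd, hdN, rfl⟩ := hx
    rw [coeffMap_gen]
    exact qExpand_mem_convLaurent d jqModC_mem_convLaurent
  | algebraMap c => exact coeffMap_algebraMap_mem ι c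
  | add x y _ _ hx hy =>
    rw [map_add]
    exact convLaurent.add_mem hx hy
  | mul x y _ _ hx hy =>
    rw [map_mul]
    exact convLaurent.mul_mem hx hy

/-- A uniformising datum adapted to level `N`. -/
structure UDN (N : ℕ) extends UD where
  gen : ∀ (d : ℕ) [NeZero d], d ∣ N → ∀ g : SL(2, ℤ),
    ∃ F, HasExp toUD (fun τ => jfun (dm d (g • τ))) F

variable {N : ℕ} (U : UDN N)

theorem exists_exp {x : LaurentSeries k} (hx : x ∈ Bk k N) (g : SL(2, ℤ)) :
    ∃ F, HasExp U.toUD (fun τ => fn ι x (g • τ)) F := by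
  induction hx using Algebra.adjoin_induction with
  | mem x hx =>
    obtain ⟨d, hd, hdN, rfl⟩ := hx
    obtain ⟨F, hF⟩ := U.gen d hdN g
    refine ⟨F, ?_⟩
    simp_rw [fn_gen]
    exact hF
  | algebraMap c =>
    refine ⟨HahnSeries.C (ι c), ?_⟩
    simp_rw [fn_algebraMap]
    exact hasExp_const _ _
  | add x y hx' hy' hx hy =>
    obtain ⟨F, hF⟩ := hx
    obtain ⟨G, hG⟩ := hy
    refine ⟨F + G, ?_⟩
    simp_rw [fn_add ι (conv_of_mem_Bk ι hx') (conv_of_mem_Bk ι hy')]
    exact hF.add hG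
  | mul x y hx' hy' hx hy =>
    obtain ⟨F, hF⟩ := hx
    obtain ⟨G, hG⟩ := hy
    refine ⟨F * G, ?_⟩
    simp_rw [fn_mul ι (conv_of_mem_Bk ι hx') (conv_of_mem_Bk ι hy')]
    exact hF.mul hG

/-- The expansion as a ring homomorphism on `Bk`. -/
def expB (g : SL(2, ℤ)) : Bk k N →+* LaurentSeries ℂ where
  toFun x := (exists_exp ι U x.2 g).choose
  map_one' := by
    refine (exists_exp ι U (1 : Bk k N).2 g).choose_spec.unique ?_
    have h1 : (fun τ : ℍ => fn ι ((1 : Bk k N) : LaurentSeries k) (g • τ)) = fun _ => 1 := by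
      funext τ
      have := fn_algebraMap ι 1 (g • τ)
      rwa [map_one, map_one] at this
    rw [h1]
    exact hasExp_const U.toUD 1
  map_mul' x y := by
    refine (exists_exp ι U (x * y).2 g).choose_spec.unique ?_
    have h1 : (fun τ : ℍ => fn ι ((x * y : Bk k N) : LaurentSeries k) (g • τ)) =
        fun τ => fn ι x (g • τ) * fn ι y (g • τ) := by
      funext τ
      exact fn_mul ι (conv_of_mem_Bk ι x.2) (conv_of_mem_Bk ι y.2) _
    rw [h1]
    exact (exists_exp ι U x.2 g).choose_spec.mul (exists_exp ι U y.2 g).choose_spec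
  map_zero' := by
    refine (exists_exp ι U (0 : Bk k N).2 g).choose_spec.unique ?_
    have h1 : (fun τ : ℍ => fn ι ((0 : Bk k N) : LaurentSeries k) (g • τ)) = fun _ => 0 := by
      funext τ
      have := fn_algebraMap ι 0 (g • τ)
      rwa [map_zero, map_zero] at this
    rw [h1, ← map_zero HahnSeries.C]
    exact hasExp_const U.toUD 0
  map_add' x y := by
    refine (exists_exp ι U (x + y).2 g).choose_spec.unique ?_
    have h1 : (fun τ : ℍ => fn ι ((x + y : Bk k N) : LaurentSeries k) (g • τ)) =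
        fun τ => fn ι x (g • τ) + fn ι y (g • τ) := by
      funext τ
      exact fn_add ι (conv_of_mem_Bk ι x.2) (conv_of_mem_Bk ι y.2) _
    rw [h1]
    exact (exists_exp ι U x.2 g).choose_spec.add (exists_exp ι U y.2 g).choose_spec

theorem expB_spec (g : SL(2, ℤ)) (x : Bk k N) :
    HasExp U.toUD (fun τ => fn ι (x : LaurentSeries k) (g • τ)) (expB ι U g x) :=
  (exists_exp ι U x.2 g).choose_spec

theorem mdiff_fn {x : LaurentSeries k} (hx : x ∈ Bk k N) : MDiff (fn ι x) := by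
  have hF := conv_of_mem_Bk ι hx
  obtain ⟨m, G, hG⟩ := exists_shift (coeffMap ι x)
  have hG1 : HahnSeries.ofPowerSeries ℤ ℂ G ∈ convLaurent := by
    have h1 := convLaurent.mul_mem (single_mem_convLaurent (m : ℤ) 1) hF
    rw [hG, ← mul_assoc, HahnSeries.single_mul_single, mul_one, add_neg_cancel] at h1
    simpa using h1
  have hG' := PConv.of_mem_convLaurent hG1
  rw [UpperHalfPlane.mdifferentiable_iff]
  have h1 : DifferentiableOn ℂ (fun z : ℂ => (qParam 1 z) ^ (-(m : ℤ)) * pev G (qParam 1 z))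
      {z | 0 < z.im} := by
    refine DifferentiableOn.mul ?_ ?_
    · intro z _
      refine DifferentiableAt.differentiableWithinAt ?_
      have h2 : DifferentiableAt ℂ (qParam 1) z := by fun_prop
      exact h2.zpow (Or.inl (qParam_ne_zero _))
    · refine (differentiableOn_pev hG').comp (t := Metric.ball 0 1) ?_ ?_
      · fun_prop
      · intro z hz
        simpa using norm_qParam_lt_one one_pos hz
  refine h1.congr fun z hz => ?_
  simp only [Function.comp_apply]
  rw [ofComplex_apply_of_im_pos hz, fn, hG, evf_mul (pdisc_q _).ne_zero (convAt_single _ _ _)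
    (hG1 _ (pdisc_q _)), evf_single, evf_ofPowerSeries, one_mul]
  rfl

theorem expB_injective (g : SL(2, ℤ)) : Function.Injective (expB (k := k) ι U g) := by
  rw [injective_iff_map_eq_zero]
  intro x hx
  have h1 := expB_spec ι U g x
  rw [hx] at h1
  have h2 : ∀ τ, U.u τ ≠ 0 → fn ι (x : LaurentSeries k) (g • τ) = 0 := by
    intro τ hτ
    have := h1.2 τ hτ
    rw [evf_zero] at this
    exact this.symm
  have h3 : ∀ τ, fn ι (x : LaurentSeries k) (g • τ) = 0 := by
    refine U.dense (fun τ => fn ι (x : LaurentSeries k) (g • τ)) ?_ h2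
    intro τ
    exact ((mdiff_fn ι x.2) (g • τ)).comp τ (mdifferentiable_smul (g := (g : GL (Fin 2) ℝ))
      (by simp) τ)
  have h4 : ∀ τ, fn ι (x : LaurentSeries k) τ = 0 := by
    intro τ
    have := h3 (g⁻¹ • τ)
    rwa [smul_inv_smul] at this
  have h5 : coeffMap ι (x : LaurentSeries k) = 0 := by
    apply eq_zero_of_evf (conv_of_mem_Bk ι x.2)
    intro z hz
    have hz' := hz.ne_zero
    obtain ⟨τ, hτ⟩ : ∃ τ : ℍ, qParam 1 (τ : ℂ) = z :=
      ⟨⟨_, im_invQParam_pos_of_norm_lt_one one_pos hz.2 hz'⟩, qParam_right_inv one_ne_zero hz'⟩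
    rw [← hτ]
    exact h4 τ
  ext n
  have h6 := congrArg (fun F => HahnSeries.coeff F n) h5
  simp only [coeffMap_coeff, HahnSeries.coeff_zero] at h6
  simpa using h6

end Field

end Fermat.Agent.GenusX0
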